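import Mathlib
import Fermat.Agent.LT.T7.Spec

/-!
# Row LT, tower T7, NODE T7.14 `RigidC` -- SUB-SPEC (sub-architect helper62)

OFF-MAIN.  Definitions, frozen Props, PROVED top.  No `sorry`, nothing assumed.
Vocabulary: `LT/T7/Spec.lean` v1.2 (helper797@d4e07e123, sha256 76a196044a64, byte-identical copy;
`RigidC` is byte-unchanged since v1.1) on `LT/H556/A0.lean` (sha256 66d3374a79ca).

## Level 1 (this file)

```
T7.RigidC K  ⇐  PlaceSumC K + RSLowerC K + RSCrossC K          (`rigidC_of`, PROVED here)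
```

* `PlaceSumC K`  : `∑_v N v ^ (-s) < ∞` for `s > 1` (Mathlib only; at most `[K:ℚ]` places over a
  rational prime, `N v ≥ p`).
* `RSLowerC K`   : for a cusp form as in A0 with trivial central character, tempered outside the
  finite set `S`: `∑_{v ∉ S} |a_v|² N v ^ (-s) ≥ log (1/(s-1)) - C` for `1 < s < 2`.
  (`L^S(s, π × π̃)` has a pole at `s = 1`; only the LOWER bound is used.)
* `RSCrossC K`   : for two such forms which are not equal almost everywhere:
  `∑_{v ∉ S} Re (a_v conj a'_v) N v ^ (-s) - log (1/(s-1)) → -∞` as `s → 1⁺`.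
  (`(s - 1) L^S(s, π × π̃') → 0`; holomorphy at `s = 1` is NOT needed.)

All sums are sums over ALL finite places with the summand set to `0` on `S`
(`Set.indicator`), so that no decidability and no subtype enters.

## Level 2

`RigidPkg.lean` (same directory): `RSLowerC`, `RSCrossC` from the elementary Rankin--Selberg
package (strip identity, Parseval on `N(K) \ N(𝔸)`, Hecke recursion, depletion, orthogonality,
Abelian step).
-/

set_option autoImplicit false

open AutomorphicForm IsDedekindDomain NumberField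
open scoped ComplexConjugate

noncomputable section

namespace Fermat.Agent.LT.T7.Rigid

open Fermat.Agent.LT.H556 Fermat.Agent.LT.T7

variable (K : Type) [Field K] [NumberField K]

/-- The absolute norm of a finite place, as a real number. -/
def nv {K : Type} [Field K] [NumberField K] (v : HeightOneSpectrum (𝓞 K)) : ℝ :=
  (Ideal.absNorm v.asIdeal : ℝ)

/-- `∑_{v ∉ S} f v · N v ^ (-s)`, as a sum over all places (summand `0` on `S`). -/
def wSum {K : Type} [Field K] [NumberField K] (S : Set (HeightOneSpectrum (𝓞 K)))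
    (f : HeightOneSpectrum (𝓞 K) → ℝ) (s : ℝ) : ℝ :=
  ∑' v : HeightOneSpectrum (𝓞 K), Sᶜ.indicator (fun v => f v * nv v ^ (-s)) v

/-- **R0 (Mathlib only).**  `∑_v N v ^ (-s)` converges for `s > 1`. -/
def PlaceSumC : Prop :=
  ∀ s : ℝ, 1 < s → Summable fun v : HeightOneSpectrum (𝓞 K) => nv v ^ (-s)

/-- **NODE RS-LOWER.**  Lower bound for the mass of a cusp form: for `π` as in A0 over the
totally complex field `K`, with trivial central character and `|a_v| ≤ 2` outside the finite set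
`S`, `∑_{v ∉ S} |a_v|² N v ^ (-s) ≥ log (1 / (s - 1)) - C` for `1 < s < 2`. -/
def RSLowerC : Prop :=
  TotCplx K →
  ∀ π : HeckeEigensystem K ℂ, A0.IsCuspAdelicSph0 K π → TrivCentral π →
    ∀ S : Finset (HeightOneSpectrum (𝓞 K)),
      (∀ v : HeightOneSpectrum (𝓞 K), v ∉ S → ‖π.a v‖ ≤ 2) →
      ∃ C : ℝ, ∀ s : ℝ, 1 < s → s < 2 →
        Real.log (1 / (s - 1)) - C ≤
          wSum (S : Set (HeightOneSpectrum (𝓞 K))) (fun v => ‖π.a v‖ ^ 2) s

/-- **NODE RS-CROSS.**  For two cusp forms as in A0 over the totally complex field `K`, with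
trivial central characters, tempered outside the finite set `S`, which are NOT equal almost
everywhere: `∑_{v ∉ S} Re (a_v conj a'_v) N v ^ (-s) ≤ log (1 / (s - 1)) - M` for `s` close to
`1` (every `M`). -/
def RSCrossC : Prop :=
  TotCplx K →
  ∀ π π' : HeckeEigensystem K ℂ, A0.IsCuspAdelicSph0 K π → A0.IsCuspAdelicSph0 K π' →
    TrivCentral π → TrivCentral π' → ¬ AEq π π' →
    ∀ S : Finset (HeightOneSpectrum (𝓞 K)),
      (∀ v : HeightOneSpectrum (𝓞 K), v ∉ S → ‖π.a v‖ ≤ 2 ∧ ‖π'.a v‖ ≤ 2) →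
      ∀ M : ℝ, ∃ δ : ℝ, 0 < δ ∧ ∀ s : ℝ, 1 < s → s < 1 + δ →
        wSum (S : Set (HeightOneSpectrum (𝓞 K)))
            (fun v => (π.a v * conj (π'.a v)).re) s
          ≤ Real.log (1 / (s - 1)) - M

variable {K}

theorem one_le_nv (v : HeightOneSpectrum (𝓞 K)) : 1 ≤ nv v := by
  unfold nv
  have h : Ideal.absNorm v.asIdeal ≠ 0 := by
    rw [Ne, Ideal.absNorm_eq_zero_iff]
    exact v.ne_bot
  exact_mod_cast Nat.one_le_iff_ne_zero.mpr h

theorem nv_rpow_nonneg (v : HeightOneSpectrum (𝓞 K)) (s : ℝ) : 0 ≤ nv v ^ (-s) :=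
  Real.rpow_nonneg (le_trans zero_le_one (one_le_nv v)) _

theorem nv_rpow_le_inv (v : HeightOneSpectrum (𝓞 K)) {s : ℝ} (hs : 1 ≤ s) :
    nv v ^ (-s) ≤ (nv v)⁻¹ := by
  have h1 : nv v ^ (-s) ≤ nv v ^ (-(1 : ℝ)) :=
    Real.rpow_le_rpow_of_exponent_le (one_le_nv v) (by linarith)
  rwa [Real.rpow_neg_one] at h1

/-- Summability of a weighted sum with bounded weights. -/
theorem summable_indicator_of_bound (hP : PlaceSumC K) (S : Set (HeightOneSpectrum (𝓞 K)))
    (f : HeightOneSpectrum (𝓞 K) → ℝ) (B : ℝ) (hB : ∀ v, v ∉ S → |f v| ≤ B) {s : ℝ}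
    (hs : 1 < s) :
    Summable fun v : HeightOneSpectrum (𝓞 K) => Sᶜ.indicator (fun v => f v * nv v ^ (-s)) v := by
  have hsum : Summable fun v : HeightOneSpectrum (𝓞 K) => |B| * nv v ^ (-s) :=
    (hP s hs).mul_left _
  refine Summable.of_norm_bounded hsum ?_
  intro v
  by_cases hv : v ∈ S
  · have : v ∉ Sᶜ := fun h => h hv
    rw [Set.indicator_of_notMem this, norm_zero]
    exact mul_nonneg (abs_nonneg _) (nv_rpow_nonneg v s)
  · have : v ∈ Sᶜ := hv
    rw [Set.indicator_of_mem this, Real.norm_eq_abs, abs_mul, abs_of_nonneg (nv_rpow_nonneg v s)]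
    exact mul_le_mul_of_nonneg_right ((hB v hv).trans (le_abs_self B)) (nv_rpow_nonneg v s)

/-- **TOP of the node (level 1)**: `T7.RigidC K` from the three Props of this file. -/
theorem rigidC_of (hP : PlaceSumC K) (hL : RSLowerC K) (hX : RSCrossC K) : RigidC K := by
  intro hcplx π π' hπ hπ' ht ht' hS hA
  obtain ⟨S, hS⟩ := hS
  obtain ⟨A, hAthin, hAeq⟩ := hA
  by_contra hne
  obtain ⟨C, hC⟩ := hL hcplx π hπ ht S (fun v hv => (hS v hv).1)
  have hAsum : Summable (A.indicator fun v : HeightOneSpectrum (𝓞 K) => (nv v)⁻¹) :=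
    summable_subtype_iff_indicator.mp hAthin
  set T : ℝ := ∑' v : HeightOneSpectrum (𝓞 K), A.indicator (fun v => (nv v)⁻¹) v with hT
  obtain ⟨δ, hδ, hX'⟩ := hX hcplx π π' hπ hπ' ht ht' hne S hS (C + 8 * T + 1)
  -- a point `s` close to `1`
  set s : ℝ := 1 + min δ 1 / 2 with hs
  have hmin : 0 < min δ 1 := lt_min hδ one_pos
  have hs1 : 1 < s := by rw [hs]; linarith
  have hs2 : s < 2 := by
    have : min δ 1 ≤ 1 := min_le_right _ _
    rw [hs]; linarith
  have hsδ : s < 1 + δ := by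
    have : min δ 1 ≤ δ := min_le_left _ _
    rw [hs]; linarith
  have h1 := hC s hs1 hs2
  have h2 := hX' s hs1 hsδ
  -- the three families
  have hsum1 := summable_indicator_of_bound hP (S : Set (HeightOneSpectrum (𝓞 K)))
    (fun v => ‖π.a v‖ ^ 2) 4 (fun v hv => by
      have h := (hS v (by simpa using hv)).1
      rw [abs_of_nonneg (sq_nonneg _)]
      nlinarith [norm_nonneg (π.a v)]) hs1
  have hsum3 := summable_indicator_of_bound hP (S : Set (HeightOneSpectrum (𝓞 K)))
    (fun v => (π.a v * conj (π'.a v)).re) 4 (fun v hv => by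
      have h := hS v (by simpa using hv)
      have h3 : |(π.a v * conj (π'.a v)).re| ≤ ‖π.a v * conj (π'.a v)‖ :=
        Complex.abs_re_le_norm _
      have h4 : ‖π.a v * conj (π'.a v)‖ = ‖π.a v‖ * ‖π'.a v‖ := by
        rw [norm_mul, RCLike.norm_conj]
      rw [h4] at h3
      nlinarith [norm_nonneg (π.a v), norm_nonneg (π'.a v), h.1, h.2]) hs1
  -- termwise comparison
  have hterm : ∀ v : HeightOneSpectrum (𝓞 K),
      (S : Set (HeightOneSpectrum (𝓞 K)))ᶜ.indicator (fun v => ‖π.a v‖ ^ 2 * nv v ^ (-s)) v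
        - 8 * A.indicator (fun v => (nv v)⁻¹) v
      ≤ (S : Set (HeightOneSpectrum (𝓞 K)))ᶜ.indicator
          (fun v => (π.a v * conj (π'.a v)).re * nv v ^ (-s)) v := by
    intro v
    have hA0 : 0 ≤ A.indicator (fun v : HeightOneSpectrum (𝓞 K) => (nv v)⁻¹) v :=
      Set.indicator_nonneg (fun v _ => inv_nonneg.mpr (le_trans zero_le_one (one_le_nv v))) v
    by_cases hv : v ∈ (S : Set (HeightOneSpectrum (𝓞 K)))
    · have hv' : v ∉ (S : Set (HeightOneSpectrum (𝓞 K)))ᶜ := fun h => h hv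
      rw [Set.indicator_of_notMem hv', Set.indicator_of_notMem hv']
      linarith
    · have hv' : v ∈ (S : Set (HeightOneSpectrum (𝓞 K)))ᶜ := hv
      rw [Set.indicator_of_mem hv', Set.indicator_of_mem hv']
      have hb := hS v (by simpa using hv)
      have hn0 := nv_rpow_nonneg v s
      by_cases hvA : v ∈ A
      · rw [Set.indicator_of_mem hvA]
        have hle := nv_rpow_le_inv v hs1.le
        have h3 : |(π.a v * conj (π'.a v)).re| ≤ ‖π.a v * conj (π'.a v)‖ :=
          Complex.abs_re_le_norm _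
        have h4 : ‖π.a v * conj (π'.a v)‖ = ‖π.a v‖ * ‖π'.a v‖ := by
          rw [norm_mul, RCLike.norm_conj]
        rw [h4] at h3
        have h5 : -4 ≤ (π.a v * conj (π'.a v)).re := by
          have := neg_abs_le ((π.a v * conj (π'.a v)).re)
          nlinarith [norm_nonneg (π.a v), norm_nonneg (π'.a v), hb.1, hb.2]
        have h6 : ‖π.a v‖ ^ 2 ≤ 4 := by nlinarith [norm_nonneg (π.a v), hb.1]
        nlinarith
      · rw [Set.indicator_of_notMem hvA]
        have heq : π.a v = π'.a v := hAeq v hvA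
        have h7 : (π.a v * conj (π'.a v)).re = ‖π.a v‖ ^ 2 := by
          rw [← heq, Complex.mul_conj, Complex.ofReal_re, Complex.normSq_eq_norm_sq]
        rw [h7]
        linarith
  have hsumL : Summable fun v : HeightOneSpectrum (𝓞 K) =>
      (S : Set (HeightOneSpectrum (𝓞 K)))ᶜ.indicator (fun v => ‖π.a v‖ ^ 2 * nv v ^ (-s)) v
        - 8 * A.indicator (fun v => (nv v)⁻¹) v :=
    hsum1.sub (hAsum.mul_left 8)
  have hkey := hsumL.tsum_le_tsum hterm hsum3
  rw [hsum1.tsum_sub (hAsum.mul_left 8), tsum_mul_left] at hkey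
  have hw1 : wSum (S : Set (HeightOneSpectrum (𝓞 K))) (fun v => ‖π.a v‖ ^ 2) s
      = ∑' v : HeightOneSpectrum (𝓞 K),
          (S : Set (HeightOneSpectrum (𝓞 K)))ᶜ.indicator
            (fun v => ‖π.a v‖ ^ 2 * nv v ^ (-s)) v := rfl
  have hw3 : wSum (S : Set (HeightOneSpectrum (𝓞 K)))
        (fun v => (π.a v * conj (π'.a v)).re) s
      = ∑' v : HeightOneSpectrum (𝓞 K),
          (S : Set (HeightOneSpectrum (𝓞 K)))ᶜ.indicator
            (fun v => (π.a v * conj (π'.a v)).re * nv v ^ (-s)) v := rfl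
  rw [hw1] at h1
  rw [hw3] at h2
  linarith

/-- `T7.RigidAll` from the three Props for every number field. -/
theorem rigidAll_of
    (hP : ∀ (K : Type) [Field K] [NumberField K], PlaceSumC K)
    (hL : ∀ (K : Type) [Field K] [NumberField K], RSLowerC K)
    (hX : ∀ (K : Type) [Field K] [NumberField K], RSCrossC K) : RigidAll :=
  fun K _ _ => rigidC_of (hP K) (hL K) (hX K)

end Fermat.Agent.LT.T7.Rigid

end
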