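import Mathlib
import Fermat.Agent.LT.T7.H62.RigidSpec

/-!
# Row LT, tower T7, NODE T7.14 `RigidC` -- SUB-SPEC, LEVEL 2 (sub-architect helper62)

OFF-MAIN.  Definitions, frozen Props, PROVED reductions.  No `sorry`, nothing assumed.

```
RSLowerC K  ⇐  EulerLogC K + AbelC K + SmoothSelfC K        (`rsLowerC_of`,  PROVED here)
RSCrossC K  ⇐  EulerLogC K + AbelC K + SmoothCrossC K       (`rsCrossC_of`,  PROVED here)
RigidC K    ⇐  PlaceSumC K + the four Props above           (`rigidC_of_pkg`, PROVED here)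
```

## Vocabulary (Mathlib only)

* `hpoly a m`     : the Hecke polynomial `s_m(a)`: `s_0 = 1`, `s_1 = a`, `s_{m+2} = a s_{m+1} - s_m`
                    (`= (α^{m+1} - β^{m+1}) / (α - β)` for `α + β = a`, `α β = 1`).
* `ordAt v 𝔞`     : the multiplicity of the prime `v` in the ideal `𝔞`.
* `coef a S 𝔞`    : `∏_v s_{ord_v 𝔞}(a_v)` if `𝔞 ≠ 0` is prime to `S`, and `0` otherwise.
* `dSer c s`      : `∑_𝔞 c(𝔞) N𝔞^{-s}` (all ideals; `N 0 = 0`, `0 ^ (-s) = 0`).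
* `sSum c G Y`    : `∑_𝔞 c(𝔞) G(Y · N𝔞)`.
* `IsWeight G`    : `G ≥ 0` on `(0, ∞)`, antitone there, positive somewhere, integrable on
                    `(0, 1]`, `G(T) ≤ C T^{-1-η}` for `T ≥ 1`.

## The Props

* `EulerLogC K`   (Mathlib only): Euler product + logarithm.  For `|a_v|, |a'_v| ≤ 2` and
  `N v ≥ Q₀` outside `S`: the series `D(s) = ∑ c(𝔞) c̄'(𝔞) N𝔞^{-s}` converges absolutely for
  `s > 1`, `D(s) ≠ 0` and `log |D(s)| = ∑_{v ∉ S} Re (a_v ā'_v) N v^{-s} + O(1)` on `1 < s < 2`.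
* `AbelC K`       (Mathlib only): Abelian step.  If `Y · ∑ c(𝔞) G(Y N𝔞) → L` as `Y → 0⁺` for a
  weight `G`, then `(s - 1) ∑ c(𝔞) N𝔞^{-s} → L / m` as `s → 1⁺`, with `m = ∫₀^∞ G > 0`.
* `SmoothSelfC K` (NODE, automorphic): for a cusp form as in A0, `Y · ∑ |c(𝔞)|² G(Y N𝔞) → L ≠ 0`.
* `SmoothCrossC K`(NODE, automorphic): for two cusp forms as in A0 which are NOT equal almost
  everywhere, `Y · ∑ c(𝔞) c̄'(𝔞) G(Y N𝔞) → 0`.

The two NODES are cut in `RigidAut.lean` (level 3).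
-/

set_option autoImplicit false

open AutomorphicForm IsDedekindDomain NumberField Filter Topology
open scoped ComplexConjugate

noncomputable section

namespace Fermat.Agent.LT.T7.Rigid

open Fermat.Agent.LT.H556 Fermat.Agent.LT.T7

variable {K : Type} [Field K] [NumberField K]

/-! ## Vocabulary -/

/-- The Hecke polynomials for trivial central character: `s_0 = 1`, `s_1 = a`,
`s_{m+2} = a s_{m+1} - s_m`. -/
def hpoly (a : ℂ) : ℕ → ℂ
  | 0 => 1
  | 1 => a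
  | (m + 2) => a * hpoly a (m + 1) - hpoly a m

/-- The multiplicity of the prime `v` in the ideal `𝔞`. -/
def ordAt (v : HeightOneSpectrum (𝓞 K)) (𝔞 : Ideal (𝓞 K)) : ℕ :=
  (Associates.mk v.asIdeal).count (Associates.mk 𝔞).factors

open Classical in
/-- The coefficient of the ideal `𝔞`: `∏_v s_{ord_v 𝔞}(a_v)` if `𝔞 ≠ 0` is prime to `S`, and `0`
otherwise. -/
def coef (a : HeightOneSpectrum (𝓞 K) → ℂ) (S : Set (HeightOneSpectrum (𝓞 K)))
    (𝔞 : Ideal (𝓞 K)) : ℂ :=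
  if 𝔞 = ⊥ ∨ ∃ v ∈ S, 𝔞 ≤ v.asIdeal then 0
  else ∏ᶠ v : HeightOneSpectrum (𝓞 K), hpoly (a v) (ordAt v 𝔞)

/-- The product coefficient `c(𝔞) c̄'(𝔞)`. -/
def coef2 (a a' : HeightOneSpectrum (𝓞 K) → ℂ) (S : Set (HeightOneSpectrum (𝓞 K)))
    (𝔞 : Ideal (𝓞 K)) : ℂ :=
  coef a S 𝔞 * conj (coef a' S 𝔞)

/-- `∑_𝔞 c(𝔞) N𝔞^{-s}`. -/
def dSer (c : Ideal (𝓞 K) → ℂ) (s : ℝ) : ℂ :=
  ∑' 𝔞 : Ideal (𝓞 K), c 𝔞 * (((Ideal.absNorm 𝔞 : ℝ) ^ (-s) : ℝ) : ℂ)

/-- `∑_𝔞 c(𝔞) G(Y · N𝔞)`. -/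
def sSum (c : Ideal (𝓞 K) → ℂ) (G : ℝ → ℝ) (Y : ℝ) : ℂ :=
  ∑' 𝔞 : Ideal (𝓞 K), c 𝔞 * ((G (Y * (Ideal.absNorm 𝔞 : ℝ)) : ℝ) : ℂ)

/-- Admissible weights. -/
structure IsWeight (G : ℝ → ℝ) : Prop where
  nonneg : ∀ T : ℝ, 0 < T → 0 ≤ G T
  anti : AntitoneOn G (Set.Ioi 0)
  pos : ∃ T : ℝ, 0 < T ∧ 0 < G T
  int0 : MeasureTheory.IntegrableOn G (Set.Ioc 0 1)
  decay : ∃ C η : ℝ, 0 < η ∧ ∀ T : ℝ, 1 ≤ T → G T ≤ C * T ^ (-(1 + η))

/-- `S` contains every place which is bad for `π`: outside `S` the place does not divide the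
level, `b_v = 1` and `|a_v| ≤ 2`. -/
def IsGoodOutside (π : HeckeEigensystem K ℂ) (S : Finset (HeightOneSpectrum (𝓞 K))) : Prop :=
  ∀ v : HeightOneSpectrum (𝓞 K), v ∉ S →
    ¬ v.asIdeal ∣ π.level ∧ π.b v = 1 ∧ ‖π.a v‖ ≤ 2

/-! ## The Props of level 2 -/

variable (K)

/-- **LEAF EULER-LOG (Mathlib only).**  There is `Q₀` such that for all families `a, a'` and every
finite set `S` of places with `N v ≥ Q₀`, `|a_v| ≤ 2`, `|a'_v| ≤ 2` outside `S`: the series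
`D(s) = ∑_𝔞 c(𝔞) c̄'(𝔞) N𝔞^{-s}` converges absolutely for `s > 1`, and on `1 < s < 2`
`D(s) ≠ 0`, `| log |D(s)| - ∑_{v ∉ S} Re (a_v ā'_v) N v^{-s} | ≤ C`.
(`|s_m(a)| ≤ (m+1) (1+√2)^m`; local factor `1 + a ā' q^{-s} + O(q^{-2s})`; `Q₀ = 64` works.) -/
def EulerLogC : Prop :=
  PlaceSumC K →
  ∃ Q₀ : ℕ, ∀ (a a' : HeightOneSpectrum (𝓞 K) → ℂ) (S : Finset (HeightOneSpectrum (𝓞 K))),
    (∀ v : HeightOneSpectrum (𝓞 K), v ∉ S →
      Q₀ ≤ Ideal.absNorm v.asIdeal ∧ ‖a v‖ ≤ 2 ∧ ‖a' v‖ ≤ 2) →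
    (∀ s : ℝ, 1 < s → Summable fun 𝔞 : Ideal (𝓞 K) =>
      ‖coef2 a a' (S : Set (HeightOneSpectrum (𝓞 K))) 𝔞‖ * (Ideal.absNorm 𝔞 : ℝ) ^ (-s)) ∧
    ∃ C : ℝ, ∀ s : ℝ, 1 < s → s < 2 →
      dSer (coef2 a a' (S : Set (HeightOneSpectrum (𝓞 K)))) s ≠ 0 ∧
      |Real.log ‖dSer (coef2 a a' (S : Set (HeightOneSpectrum (𝓞 K)))) s‖
        - wSum (S : Set (HeightOneSpectrum (𝓞 K))) (fun v => (a v * conj (a' v)).re) s| ≤ C

/-- **LEAF ABEL (Mathlib only).**  Abelian step: for a weight `G` and coefficients `c` with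
`c(0) = 0` and `∑ |c(𝔞)| N𝔞^{-s} < ∞` (`s > 1`): if `Y · ∑ c(𝔞) G(Y N𝔞) → L` as `Y → 0⁺` then
`(s - 1) ∑ c(𝔞) N𝔞^{-s} → L / m` as `s → 1⁺` for some `m > 0` (`m = ∫₀^∞ G`). -/
def AbelC : Prop :=
  ∀ (c : Ideal (𝓞 K) → ℂ) (G : ℝ → ℝ) (L : ℂ), IsWeight G → c ⊥ = 0 →
    (∀ s : ℝ, 1 < s → Summable fun 𝔞 : Ideal (𝓞 K) =>
      ‖c 𝔞‖ * (Ideal.absNorm 𝔞 : ℝ) ^ (-s)) →
    Tendsto (fun Y : ℝ => (Y : ℂ) * sSum c G Y) (𝓝[>] (0 : ℝ)) (𝓝 L) →
    ∃ m : ℝ, 0 < m ∧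
      Tendsto (fun s : ℝ => ((s - 1 : ℝ) : ℂ) * dSer c s) (𝓝[>] (1 : ℝ)) (𝓝 (L / (m : ℂ)))

/-- **NODE SMOOTH-SELF (automorphic).**  For a cusp form as in A0 over the totally complex field
`K` and a finite set `S` containing the bad places: there are a weight `G` and `L ≠ 0` with
`Y · ∑_{𝔞 prime to S} |c(𝔞)|² G(Y N𝔞) → L` as `Y → 0⁺`. -/
def SmoothSelfC : Prop :=
  TotCplx K →
  ∀ π : HeckeEigensystem K ℂ, A0.IsCuspAdelicSph0 K π →
    ∀ S : Finset (HeightOneSpectrum (𝓞 K)), IsGoodOutside π S →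
      ∃ (G : ℝ → ℝ) (L : ℂ), IsWeight G ∧ L ≠ 0 ∧
        Tendsto (fun Y : ℝ => (Y : ℂ) *
            sSum (coef2 π.a π.a (S : Set (HeightOneSpectrum (𝓞 K)))) G Y)
          (𝓝[>] (0 : ℝ)) (𝓝 L)

/-- **NODE SMOOTH-CROSS (automorphic).**  For two cusp forms as in A0 over the totally complex
field `K` which are NOT equal almost everywhere, and a finite set `S` containing the bad places
of both: there is a weight `G` with `Y · ∑_{𝔞 prime to S} c(𝔞) c̄'(𝔞) G(Y N𝔞) → 0` as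
`Y → 0⁺`. -/
def SmoothCrossC : Prop :=
  TotCplx K →
  ∀ π π' : HeckeEigensystem K ℂ, A0.IsCuspAdelicSph0 K π → A0.IsCuspAdelicSph0 K π' →
    ¬ AEq π π' →
    ∀ S : Finset (HeightOneSpectrum (𝓞 K)), IsGoodOutside π S → IsGoodOutside π' S →
      ∃ G : ℝ → ℝ, IsWeight G ∧
        Tendsto (fun Y : ℝ => (Y : ℂ) *
            sSum (coef2 π.a π'.a (S : Set (HeightOneSpectrum (𝓞 K)))) G Y)
          (𝓝[>] (0 : ℝ)) (𝓝 0)

/-! ## Bookkeeping for the reductions -/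

variable {K}

theorem nv_rpow_le_one (v : HeightOneSpectrum (𝓞 K)) {s : ℝ} (hs : 0 ≤ s) : nv v ^ (-s) ≤ 1 :=
  Real.rpow_le_one_of_one_le_of_nonpos (one_le_nv v) (by linarith)

/-- The places of norm `< Q` form a finite set. -/
theorem finite_nv_lt (Q : ℕ) :
    {v : HeightOneSpectrum (𝓞 K) | Ideal.absNorm v.asIdeal < Q}.Finite := by
  have h := Ideal.finite_setOfPred_absNorm_le (S := 𝓞 K) Q
  refine Set.Finite.of_finite_image (f := fun v : HeightOneSpectrum (𝓞 K) => v.asIdeal)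
    (h.subset ?_) ?_
  · rintro _ ⟨v, hv, rfl⟩
    exact le_of_lt (show Ideal.absNorm v.asIdeal < Q from hv)
  · intro v _ w _ hvw
    exact HeightOneSpectrum.ext hvw

omit [NumberField K] in
/-- The indicator of a finite set of places, with constant value `B`, has sum `B · card`. -/
theorem tsum_indicator_const (S₁ : Finset (HeightOneSpectrum (𝓞 K))) (B : ℝ) :
    HasSum (fun v : HeightOneSpectrum (𝓞 K) =>
      (S₁ : Set (HeightOneSpectrum (𝓞 K))).indicator (fun _ => B) v) ((S₁.card : ℝ) * B) := by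
  have h : HasSum (fun v : HeightOneSpectrum (𝓞 K) =>
      (S₁ : Set (HeightOneSpectrum (𝓞 K))).indicator (fun _ => B) v)
      (∑ v ∈ S₁, (S₁ : Set (HeightOneSpectrum (𝓞 K))).indicator (fun _ => B) v) :=
    hasSum_sum_of_ne_finset_zero (fun v hv => by
        rw [Set.indicator_of_notMem]
        simpa using hv)
  have h2 : ∑ v ∈ S₁, (S₁ : Set (HeightOneSpectrum (𝓞 K))).indicator (fun _ => B) v
      = (S₁.card : ℝ) * B := by
    rw [Finset.sum_congr rfl (fun v hv => Set.indicator_of_mem (by simpa using hv) _)]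
    simp
  rwa [h2] at h

/-- Enlarging the excluded set, nonnegative terms: the sum decreases. -/
theorem wSum_mono (S S₁ : Set (HeightOneSpectrum (𝓞 K))) (hSS : S ⊆ S₁)
    (f : HeightOneSpectrum (𝓞 K) → ℝ) (hf : ∀ v, v ∉ S → 0 ≤ f v) (s : ℝ)
    (hsum : Summable fun v : HeightOneSpectrum (𝓞 K) =>
      Sᶜ.indicator (fun v => f v * nv v ^ (-s)) v)
    (hsum₁ : Summable fun v : HeightOneSpectrum (𝓞 K) =>
      S₁ᶜ.indicator (fun v => f v * nv v ^ (-s)) v) :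
    wSum S₁ f s ≤ wSum S f s := by
  unfold wSum
  refine hsum₁.tsum_le_tsum (fun v => ?_) hsum
  have hn0 := nv_rpow_nonneg v s
  by_cases hv₁ : v ∈ S₁
  · by_cases hv : v ∈ S
    · simp [hv, hv₁]
    · simpa [Set.indicator_apply, hv, hv₁] using mul_nonneg (hf v hv) hn0
  · have hv : v ∉ S := fun h => hv₁ (hSS h)
    simp [hv, hv₁]

/-- Enlarging the excluded set by a finite set, bounded terms: the sum changes by at most
`B · card S₁`. -/
theorem wSum_le_add (S S₁ : Finset (HeightOneSpectrum (𝓞 K))) (hSS : S ⊆ S₁)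
    (f : HeightOneSpectrum (𝓞 K) → ℝ) (B : ℝ) (hB : 0 ≤ B) (hf : ∀ v, v ∉ S → f v ≤ B) {s : ℝ}
    (hs : 0 ≤ s)
    (hsum : Summable fun v : HeightOneSpectrum (𝓞 K) =>
      (S : Set (HeightOneSpectrum (𝓞 K)))ᶜ.indicator (fun v => f v * nv v ^ (-s)) v)
    (hsum₁ : Summable fun v : HeightOneSpectrum (𝓞 K) =>
      (S₁ : Set (HeightOneSpectrum (𝓞 K)))ᶜ.indicator (fun v => f v * nv v ^ (-s)) v) :
    wSum (S : Set (HeightOneSpectrum (𝓞 K))) f s
      ≤ wSum (S₁ : Set (HeightOneSpectrum (𝓞 K))) f s + (S₁.card : ℝ) * B := by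
  unfold wSum
  have hc := tsum_indicator_const S₁ B
  rw [← hc.tsum_eq, ← hsum₁.tsum_add hc.summable]
  refine hsum.tsum_le_tsum (fun v => ?_) (hsum₁.add hc.summable)
  have hn0 := nv_rpow_nonneg v s
  have hn1 := nv_rpow_le_one v hs
  by_cases hv₁ : v ∈ S₁
  · by_cases hv : v ∈ S
    · simpa [Set.indicator_apply, hv, hv₁] using hB
    · have := hf v hv
      have h1 : f v * nv v ^ (-s) ≤ B := by nlinarith
      simpa [Set.indicator_apply, hv, hv₁] using h1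
  · by_cases hv : v ∈ S
    · exact absurd (hSS hv) hv₁
    · simp [hv, hv₁]

theorem IsGoodOutside.mono {π : HeckeEigensystem K ℂ} {S S₁ : Finset (HeightOneSpectrum (𝓞 K))}
    (h : IsGoodOutside π S) (hSS : S ⊆ S₁) : IsGoodOutside π S₁ :=
  fun v hv => h v (fun hvS => hv (hSS hvS))

/-- A finite set containing `S`, the bad places of `π` and the places of norm `< Q`. -/
theorem exists_good_finset (π : HeckeEigensystem K ℂ) (ht : TrivCentral π)
    (S : Finset (HeightOneSpectrum (𝓞 K)))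
    (hS : ∀ v : HeightOneSpectrum (𝓞 K), v ∉ S → ‖π.a v‖ ≤ 2) (Q : ℕ) :
    ∃ S₁ : Finset (HeightOneSpectrum (𝓞 K)), S ⊆ S₁ ∧ IsGoodOutside π S₁ ∧
      ∀ v : HeightOneSpectrum (𝓞 K), v ∉ S₁ → Q ≤ Ideal.absNorm v.asIdeal := by
  classical
  obtain ⟨S₀, hS₀⟩ := ht
  have hfin1 : {v : HeightOneSpectrum (𝓞 K) | v.asIdeal ∣ π.level}.Finite :=
    Ideal.finite_factors π.level_ne_bot
  have hfin2 := finite_nv_lt (K := K) Q
  refine ⟨S ∪ S₀ ∪ hfin1.toFinset ∪ hfin2.toFinset, ?_, ?_, ?_⟩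
  · intro v hv
    simp [hv]
  · intro v hv
    simp only [Finset.mem_union, Set.Finite.mem_toFinset, Set.mem_ofPred_eq, not_or] at hv
    exact ⟨hv.1.2, hS₀ v hv.1.1.2, hS v hv.1.1.1⟩
  · intro v hv
    simp only [Finset.mem_union, Set.Finite.mem_toFinset, Set.mem_ofPred_eq, not_or] at hv
    exact not_lt.mp hv.2

/-- From a limit at `1⁺` to a `δ`. -/
theorem exists_delta_of_eventually {p : ℝ → Prop} (h : ∀ᶠ s in 𝓝[>] (1 : ℝ), p s) :
    ∃ δ : ℝ, 0 < δ ∧ ∀ s : ℝ, 1 < s → s < 1 + δ → p s := by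
  obtain ⟨u, hu, hsub⟩ := mem_nhdsGT_iff_exists_Ioo_subset.mp h
  refine ⟨u - 1, by simpa using hu, fun s hs1 hs2 => hsub ⟨hs1, by linarith⟩⟩

theorem re_mul_conj_self (z : ℂ) : (z * conj z).re = ‖z‖ ^ 2 := by
  rw [Complex.mul_conj, Complex.ofReal_re, Complex.normSq_eq_norm_sq]

theorem abs_re_mul_conj_le {z w : ℂ} (hz : ‖z‖ ≤ 2) (hw : ‖w‖ ≤ 2) :
    |(z * conj w).re| ≤ 4 := by
  have h3 : |(z * conj w).re| ≤ ‖z * conj w‖ := Complex.abs_re_le_norm _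
  have h4 : ‖z * conj w‖ = ‖z‖ * ‖w‖ := by rw [norm_mul, RCLike.norm_conj]
  rw [h4] at h3
  nlinarith [norm_nonneg z, norm_nonneg w]

theorem coef2_bot (a a' : HeightOneSpectrum (𝓞 K) → ℂ) (S : Set (HeightOneSpectrum (𝓞 K))) :
    coef2 a a' S ⊥ = 0 := by
  simp [coef2, coef]

/-- **Reduction of `RSLowerC`.** -/
theorem rsLowerC_of (hP : PlaceSumC K) (hE : EulerLogC K) (hA : AbelC K)
    (hSm : SmoothSelfC K) : RSLowerC K := by
  intro hcplx π hπ ht S hSb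
  obtain ⟨Q₀, hQ⟩ := hE hP
  obtain ⟨S₁, hSS, hgood, hQ₁⟩ := exists_good_finset π ht S hSb Q₀
  obtain ⟨hsummable, C, hC⟩ := hQ π.a π.a S₁ (fun v hv => ⟨hQ₁ v hv, (hgood v hv).2.2,
    (hgood v hv).2.2⟩)
  obtain ⟨G, L, hG, hL, hten⟩ := hSm hcplx π hπ S₁ hgood
  obtain ⟨m, hm, hlim⟩ := hA _ G L hG (coef2_bot _ _ _) hsummable hten
  have hpos : 0 < ‖L / (m : ℂ)‖ :=
    norm_pos_iff.mpr (div_ne_zero hL (by exact_mod_cast hm.ne'))
  set c₀ : ℝ := ‖L / (m : ℂ)‖ / 2 with hc₀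
  have hc₀pos : 0 < c₀ := by positivity
  have hev : ∀ᶠ s in 𝓝[>] (1 : ℝ),
      c₀ < ‖((s - 1 : ℝ) : ℂ) * dSer (coef2 π.a π.a (S₁ : Set (HeightOneSpectrum (𝓞 K)))) s‖ :=
    hlim.norm.eventually (lt_mem_nhds (half_lt_self hpos))
  obtain ⟨δ, hδ, hδ'⟩ := exists_delta_of_eventually hev
  refine ⟨max (C - Real.log c₀) (Real.log (1 / min δ 1)), fun s hs1 hs2 => ?_⟩
  -- summability of the two families
  have hsumS := summable_indicator_of_bound hP (S : Set (HeightOneSpectrum (𝓞 K)))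
    (fun v => ‖π.a v‖ ^ 2) 4 (fun v hv => by
      have h := hSb v (by simpa using hv)
      rw [abs_of_nonneg (sq_nonneg _)]
      nlinarith [norm_nonneg (π.a v)]) hs1
  have hsumS₁ := summable_indicator_of_bound hP (S₁ : Set (HeightOneSpectrum (𝓞 K)))
    (fun v => ‖π.a v‖ ^ 2) 4 (fun v hv => by
      have h := (hgood v (by simpa using hv)).2.2
      rw [abs_of_nonneg (sq_nonneg _)]
      nlinarith [norm_nonneg (π.a v)]) hs1
  have hmono := wSum_mono (S : Set (HeightOneSpectrum (𝓞 K))) (S₁ : Set (HeightOneSpectrum (𝓞 K)))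
    (by exact_mod_cast hSS) (fun v => ‖π.a v‖ ^ 2) (fun v _ => sq_nonneg _) s hsumS hsumS₁
  have hfun : (fun v : HeightOneSpectrum (𝓞 K) => (π.a v * conj (π.a v)).re)
      = fun v => ‖π.a v‖ ^ 2 := funext fun v => re_mul_conj_self _
  by_cases hsδ : s < 1 + min δ 1
  · have hs3 : s < 1 + δ := lt_of_lt_of_le hsδ (by linarith [min_le_left δ 1])
    have h1 := hδ' s hs1 hs3
    obtain ⟨hne, habs⟩ := hC s hs1 hs2
    rw [hfun] at habs
    have hs0 : 0 < s - 1 := by linarith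
    rw [norm_mul, Complex.norm_real, Real.norm_eq_abs, abs_of_pos hs0] at h1
    have hDpos : 0 < ‖dSer (coef2 π.a π.a (S₁ : Set (HeightOneSpectrum (𝓞 K)))) s‖ :=
      norm_pos_iff.mpr hne
    have h2 : c₀ * (1 / (s - 1))
        < ‖dSer (coef2 π.a π.a (S₁ : Set (HeightOneSpectrum (𝓞 K)))) s‖ := by
      rw [mul_one_div, div_lt_iff₀ hs0]
      linarith
    have h3 : Real.log (c₀ * (1 / (s - 1)))
        < Real.log ‖dSer (coef2 π.a π.a (S₁ : Set (HeightOneSpectrum (𝓞 K)))) s‖ :=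
      Real.log_lt_log (by positivity) h2
    rw [Real.log_mul hc₀pos.ne' (by positivity)] at h3
    have h4 := (abs_le.mp habs).2
    have h5 := le_max_left (C - Real.log c₀) (Real.log (1 / min δ 1))
    linarith
  · have hmin : 0 < min δ 1 := lt_min hδ one_pos
    have hs4 : min δ 1 ≤ s - 1 := by linarith [not_lt.mp hsδ]
    have h0 : 0 ≤ wSum (S : Set (HeightOneSpectrum (𝓞 K))) (fun v => ‖π.a v‖ ^ 2) s := by
      unfold wSum
      refine tsum_nonneg fun v => Set.indicator_nonneg (fun v _ => ?_) v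
      exact mul_nonneg (sq_nonneg _) (nv_rpow_nonneg v s)
    have h6 : Real.log (1 / (s - 1)) ≤ Real.log (1 / min δ 1) :=
      Real.log_le_log (by positivity) (one_div_le_one_div_of_le hmin hs4)
    have h5 := le_max_right (C - Real.log c₀) (Real.log (1 / min δ 1))
    linarith

/-- **Reduction of `RSCrossC`.** -/
theorem rsCrossC_of (hP : PlaceSumC K) (hE : EulerLogC K) (hA : AbelC K)
    (hSm : SmoothCrossC K) : RSCrossC K := by
  intro hcplx π π' hπ hπ' ht ht' hne S hSb M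
  classical
  obtain ⟨Q₀, hQ⟩ := hE hP
  obtain ⟨S₁, hSS₁, hgood₁, hQ₁⟩ := exists_good_finset π ht S (fun v hv => (hSb v hv).1) Q₀
  obtain ⟨S₂, hSS₂, hgood₂, -⟩ := exists_good_finset π' ht' S (fun v hv => (hSb v hv).2) Q₀
  set T : Finset (HeightOneSpectrum (𝓞 K)) := S₁ ∪ S₂ with hT
  have hS₁T : S₁ ⊆ T := Finset.subset_union_left
  have hS₂T : S₂ ⊆ T := Finset.subset_union_right
  have hST : S ⊆ T := hSS₁.trans hS₁T
  have hg : IsGoodOutside π T := hgood₁.mono hS₁T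
  have hg' : IsGoodOutside π' T := hgood₂.mono hS₂T
  obtain ⟨hsummable, C, hC⟩ := hQ π.a π'.a T (fun v hv =>
    ⟨hQ₁ v (fun h => hv (hS₁T h)), (hg v hv).2.2, (hg' v hv).2.2⟩)
  obtain ⟨G, hG, hten⟩ := hSm hcplx π π' hπ hπ' hne T hg hg'
  obtain ⟨m, hm, hlim⟩ := hA _ G 0 hG (coef2_bot _ _ _) hsummable hten
  rw [zero_div] at hlim
  set ε : ℝ := Real.exp (-(M + C + (T.card : ℝ) * 4)) with hε
  have hεpos : 0 < ε := Real.exp_pos _
  have hev : ∀ᶠ s in 𝓝[>] (1 : ℝ),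
      ‖((s - 1 : ℝ) : ℂ) * dSer (coef2 π.a π'.a (T : Set (HeightOneSpectrum (𝓞 K)))) s‖ < ε := by
    have := hlim.norm
    rw [norm_zero] at this
    exact this.eventually (gt_mem_nhds hεpos)
  obtain ⟨δ, hδ, hδ'⟩ := exists_delta_of_eventually hev
  refine ⟨min δ 1, lt_min hδ one_pos, fun s hs1 hs2 => ?_⟩
  have hs3 : s < 1 + δ := lt_of_lt_of_le hs2 (by linarith [min_le_left δ 1])
  have hs4 : s < 2 := lt_of_lt_of_le hs2 (by linarith [min_le_right δ 1])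
  have hs0 : 0 < s - 1 := by linarith
  have h1 := hδ' s hs1 hs3
  obtain ⟨hne0, habs⟩ := hC s hs1 hs4
  rw [norm_mul, Complex.norm_real, Real.norm_eq_abs, abs_of_pos hs0] at h1
  have hDpos : 0 < ‖dSer (coef2 π.a π'.a (T : Set (HeightOneSpectrum (𝓞 K)))) s‖ :=
    norm_pos_iff.mpr hne0
  have h2 : ‖dSer (coef2 π.a π'.a (T : Set (HeightOneSpectrum (𝓞 K)))) s‖
      < ε * (1 / (s - 1)) := by
    rw [mul_one_div, lt_div_iff₀ hs0]
    linarith
  have h3 : Real.log ‖dSer (coef2 π.a π'.a (T : Set (HeightOneSpectrum (𝓞 K)))) s‖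
      < Real.log (ε * (1 / (s - 1))) := Real.log_lt_log hDpos h2
  rw [Real.log_mul hεpos.ne' (by positivity), hε, Real.log_exp] at h3
  have h4 := (abs_le.mp habs).1
  -- from `S` to `T`
  have hsumS := summable_indicator_of_bound hP (S : Set (HeightOneSpectrum (𝓞 K)))
    (fun v => (π.a v * conj (π'.a v)).re) 4 (fun v hv => by
      have h := hSb v (by simpa using hv)
      exact abs_re_mul_conj_le h.1 h.2) hs1
  have hsumT := summable_indicator_of_bound hP (T : Set (HeightOneSpectrum (𝓞 K)))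
    (fun v => (π.a v * conj (π'.a v)).re) 4 (fun v hv => by
      have hv' : v ∉ T := by simpa using hv
      exact abs_re_mul_conj_le (hg v hv').2.2 (hg' v hv').2.2) hs1
  have h5 := wSum_le_add S T hST (fun v => (π.a v * conj (π'.a v)).re) 4 (by norm_num)
    (fun v hv => (le_abs_self _).trans (abs_re_mul_conj_le (hSb v hv).1 (hSb v hv).2))
    (by linarith : (0 : ℝ) ≤ s) hsumS hsumT
  linarith

/-- **`T7.RigidC K` from the package of level 2.** -/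
theorem rigidC_of_pkg (hP : PlaceSumC K) (hE : EulerLogC K) (hA : AbelC K)
    (hS : SmoothSelfC K) (hX : SmoothCrossC K) : RigidC K :=
  rigidC_of hP (rsLowerC_of hP hE hA hS) (rsCrossC_of hP hE hA hX)

/-- `T7.RigidAll` from the package of level 2 for every number field. -/
theorem rigidAll_of_pkg
    (hP : ∀ (K : Type) [Field K] [NumberField K], PlaceSumC K)
    (hE : ∀ (K : Type) [Field K] [NumberField K], EulerLogC K)
    (hA : ∀ (K : Type) [Field K] [NumberField K], AbelC K)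
    (hS : ∀ (K : Type) [Field K] [NumberField K], SmoothSelfC K)
    (hX : ∀ (K : Type) [Field K] [NumberField K], SmoothCrossC K) : RigidAll :=
  fun K _ _ => rigidC_of_pkg (hP K) (hE K) (hA K) (hS K) (hX K)

/-! ## The equation lemmas of `hpoly`, realised ONCE (v2, 16:00Z)

`hpoly` is defined by pattern matching: a module which unfolds it (`simp [hpoly]`, `rw [hpoly]`,
`unfold hpoly`) realises `hpoly.eq_def`, `hpoly.eq_1`, ... in its own `.olean` unless an imported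
module has done so, and two such realisations in one closure collide in the grader's kernel
checker (found by helper328 in the closure of `RigidPlug3`).  They are realised HERE, upstream of
every user.  Nothing else of this file is changed. -/

theorem hpoly_eq_def62 (a : ℂ) (n : ℕ) :
    hpoly a n = match n with
      | 0 => 1
      | 1 => a
      | (m + 2) => a * hpoly a (m + 1) - hpoly a m :=
  hpoly.eq_def a n

theorem hpoly_zero62 (a : ℂ) : hpoly a 0 = 1 :=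
  hpoly.eq_1 a

theorem hpoly_one62 (a : ℂ) : hpoly a 1 = a :=
  hpoly.eq_2 a

theorem hpoly_succ62 (a : ℂ) (m : ℕ) :
    hpoly a (m + 2) = a * hpoly a (m + 1) - hpoly a m :=
  hpoly.eq_3 a m

end Fermat.Agent.LT.T7.Rigid

end
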