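import Mathlib
import Fermat.Agent.LT.T5.Spec
import Fermat.Agent.LT.T7.H62.RigidPkg

/-!
# Row LT, tower T7, NODE T7.14 `RigidC` -- SUB-SPEC, LEVEL 3 (sub-architect helper62)

OFF-MAIN.  Definitions, frozen Props, PROVED reductions.  No `sorry`, nothing assumed.

```
SmoothSelfC K   ⇐  frame + StripC K + CountC K + NormPosC K     (`smoothSelfC_of`,  PROVED here)
SmoothCrossC K  ⇐  frame + StripC K + CountC K + OrthC K        (`smoothCrossC_of`, PROVED here)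
```

`frame` = `∃ μ F, T5.IsFrame μ F` (tower T1: `T5.H62.frame_exists_of_T1Out62`).

## Vocabulary

* `rowOf x g`     : the row vector `(c, d) · g ∈ 𝔸²` for `x = (c, d) ∈ K²`.
* `rowNorm r`     : `∏_{w ∣ ∞} (|r₀|² + |r₁|²)^{[K_w:ℝ]/2} · ∏_v max(|r₀|_v, |r₁|_v)`; the HEIGHT of
                    `g` along the Borel subgroup is `|det g|_𝔸 / rowNorm(bottom row of g)²`
                    (`= |y|_𝔸` for `g = n(x) a(y) z k`).
* `cntSet 𝔪 Y g`  : the points `x = [c : d]` of `ℙ¹(K) = B(K) \ GL₂(K)` with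
                    `height (γ_x g) ≥ Y` and `γ_x g ∈ B(𝔸) K₀(𝔪)` (bottom row `r` of `γ_x g`:
                    `r₀ ∈ 𝔪 r₁ 𝒪_v` at every `v ∣ 𝔪`).  `cnt = Nat.card`.
* `IsSForm π S φ` : `φ` is as in `A0.IsSph0CuspFormFor` (possibly zero), with the level condition
                    weakened to invariance under `U(𝔪)` for SOME `𝔪 ≠ 0` supported in `S`, Hecke
                    eigenfunction with `(a_v, 1)` at every `v ∉ S`.  The space of `S`-forms of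
                    `π` is stable under right translation by `GL₂(K_S)` and linear combinations.

## The Props

* `CountC K`   (counting; Schanuel for `ℙ¹(K)` with the adelic metric twisted by `g` and a
  congruence condition): `Y · cnt 𝔪 Y g → κ_𝔪 > 0` as `Y → 0⁺` for EVERY `g` (same `κ`),
  `Y · cnt 𝔪 Y g ≤ C` for `0 < Y ≤ 1` uniformly in `g`, `g ↦ cnt 𝔪 Y g` Borel measurable.
* `OrthC K`    (Hecke orthogonality): `S`-forms of `π`, `π'` with `a_v ≠ a'_v` for some `v ∉ S`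
  are orthogonal on the frame.
* `NormPosC K` : a nonzero `S`-form has `⟨φ, φ⟩ ≠ 0` on the frame.
* `StripC K`   (NODE: folding + Iwasawa + Parseval on `K \ 𝔸` + Hecke recursion + localisation
  at `S` + archimedean uniqueness): for forms `φ, φ'` as in A0 there are `S`-forms `φ₁, φ₁'`,
  `𝔪`, a weight `G`, `c ≠ 0` with
  `∫_F φ₁ φ̄₁' · cnt 𝔪 Y dμ = c · ∑_{𝔞 prime to S} c(𝔞) c̄'(𝔞) G(Y N𝔞)` for all `Y > 0`.
-/

set_option autoImplicit false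

open AutomorphicForm IsDedekindDomain NumberField Filter Topology MeasureTheory
open scoped ComplexConjugate

noncomputable section

namespace Fermat.Agent.LT.T7.Rigid

open Fermat.Agent.LT.H556 Fermat.Agent.LT.H556.A0 Fermat.Agent.LT.T7

attribute [local instance] Fermat.Agent.LT.T5.instMeasurableSpaceG

variable {K : Type} [Field K] [NumberField K]

/-! ## Vocabulary -/

/-- The row vector `(c, d) · g`. -/
def rowOf (x : Fin 2 → K) (g : G K) : Fin 2 → Adl K :=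
  fun j => algebraMap K (Adl K) (x 0) * (g : Matrix (Fin 2) (Fin 2) (Adl K)) 0 j
    + algebraMap K (Adl K) (x 1) * (g : Matrix (Fin 2) (Fin 2) (Adl K)) 1 j

/-- `∏_{w ∣ ∞} (|r₀|² + |r₁|²)^{[K_w:ℝ]/2} · ∏_v max(|r₀|_v, |r₁|_v)`. -/
def rowNorm (r : Fin 2 → Adl K) : ℝ :=
  (∏ w : InfinitePlace K, (‖(r 0).1 w‖ ^ 2 + ‖(r 1).1 w‖ ^ 2) ^ ((w.mult : ℝ) / 2))
    * ∏ᶠ v : HeightOneSpectrum (𝓞 K), max ‖(r 0).2 v‖ ‖(r 1).2 v‖

/-- The points `[c : d]` of `ℙ¹(K)` with `height ≥ Y` and bottom row in `B(𝔸) K₀(𝔪)`. -/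
def cntSet (𝔪 : Ideal (𝓞 K)) (Y : ℝ) (g : G K) : Set (Projectivization K (Fin 2 → K)) :=
  {x | rowNorm (rowOf x.rep g) ^ 2 * Y
        ≤ Fermat.Agent.LT.T5.adNorm (Matrix.det (g : Matrix (Fin 2) (Fin 2) (Adl K))) ∧
    ∀ v : HeightOneSpectrum (𝓞 K), v.asIdeal ∣ 𝔪 →
      ∃ t ∈ idealClosure 𝔪 v, (rowOf x.rep g 0).2 v = t * (rowOf x.rep g 1).2 v}

/-- The counting function. -/
def cnt (𝔪 : Ideal (𝓞 K)) (Y : ℝ) (g : G K) : ℕ := Nat.card (cntSet 𝔪 Y g)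

/-- `S`-forms of `π`. -/
structure IsSForm (π : HeckeEigensystem K ℂ) (S : Finset (HeightOneSpectrum (𝓞 K)))
    (φ : G K → ℂ) : Prop where
  cont : Continuous φ
  bdd : ∃ C : ℝ, ∀ g : G K, ‖φ g‖ ≤ C
  left_inv : ∀ (γ : GL (Fin 2) K) (g : G K),
    φ (Matrix.GeneralLinearGroup.map (algebraMap K (Adl K)) γ * g) = φ g
  level_inv : ∃ 𝔪 : Ideal (𝓞 K), 𝔪 ≠ ⊥ ∧
    (∀ v : HeightOneSpectrum (𝓞 K), v.asIdeal ∣ 𝔪 → v ∈ S) ∧
    ∀ u : G K, InLevelGroup 𝔪 u → ∀ g : G K, φ (g * u) = φ g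
  arch_scalar : ∀ (w : InfinitePlace K) (z : G K), IsArchPosScalar w z →
    ∀ g : G K, φ (g * z) = φ g
  arch_compact : ∀ (w : InfinitePlace K) (k : G K), IsArchCompact w k →
    ∀ g : G K, φ (g * k) = φ g
  mean_complex : ∀ w : InfinitePlace K, w.IsComplex → MeanValueComplex φ w
  mean_real : ∀ w : InfinitePlace K, w.IsReal → MeanValueReal φ w
  cuspidal : IsCuspidalFn φ
  hecke : ∀ v : HeightOneSpectrum (𝓞 K), v ∉ S → IsHeckeEigenAt φ v (π.a v) 1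

/-- A form as in A0 is an `S`-form for every `S` containing the bad places. -/
theorem isSForm_of_A0 {π : HeckeEigensystem K ℂ} {S : Finset (HeightOneSpectrum (𝓞 K))}
    {φ : G K → ℂ} (h : IsSph0CuspFormFor π φ) (hS : IsGoodOutside π S) : IsSForm π S φ where
  cont := h.cont
  bdd := h.bdd
  left_inv := h.left_inv
  level_inv := ⟨π.level, π.level_ne_bot, fun v hv => by
    by_contra hvS
    exact (hS v hvS).1 hv, h.level_inv⟩
  arch_scalar := h.arch_scalar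
  arch_compact := h.arch_compact
  mean_complex := h.mean_complex
  mean_real := h.mean_real
  cuspidal := h.cuspidal
  hecke := fun v hv => by
    have := h.hecke v (hS v hv).1
    rwa [(hS v hv).2.1] at this

/-! ## The Props of level 3 -/

variable (K)

/-- **LEAF COUNT.**  Rational points of `ℙ¹(K)` of bounded height for the adelic metric twisted by
`g`, with a congruence condition: `Y · cnt 𝔪 Y g → κ` as `Y → 0⁺`, with the SAME `κ > 0` for every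
`g`; uniform bound for `0 < Y ≤ 1`; measurability in `g`. -/
def CountC : Prop :=
  TotCplx K →
  ∀ 𝔪 : Ideal (𝓞 K), 𝔪 ≠ ⊥ →
    ∃ κ : ℝ, 0 < κ ∧
      (∀ Y : ℝ, 0 < Y → Measurable fun g : G K => (cnt 𝔪 Y g : ℝ)) ∧
      (∀ g : G K, Tendsto (fun Y : ℝ => Y * (cnt 𝔪 Y g : ℝ)) (𝓝[>] (0 : ℝ)) (𝓝 κ)) ∧
      ∃ C : ℝ, ∀ (g : G K) (Y : ℝ), 0 < Y → Y ≤ 1 → Y * (cnt 𝔪 Y g : ℝ) ≤ C

/-- **LEAF ORTH.**  Hecke orthogonality: `S`-forms of `π` and `π'` with `a_v ≠ a'_v` at some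
`v ∉ S` are orthogonal on every frame.  (`T_v` is self-adjoint for trivial central character:
symmetric coset representatives; `a'_v` is real if `φ' ≠ 0`.) -/
def OrthC : Prop :=
  TotCplx K →
  ∀ (μ : Measure (G K)) (F : Set (G K)), Fermat.Agent.LT.T5.IsFrame μ F →
    ∀ (π π' : HeckeEigensystem K ℂ) (S : Finset (HeightOneSpectrum (𝓞 K))) (φ φ' : G K → ℂ),
      IsSForm π S φ → IsSForm π' S φ' →
      (∃ v : HeightOneSpectrum (𝓞 K), v ∉ S ∧ π.a v ≠ π'.a v) →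
      Fermat.Agent.LT.T5.innerD μ F φ φ' = 0

/-- **LEAF NORM-POS.**  A nonzero `S`-form has nonzero norm on every frame. -/
def NormPosC : Prop :=
  TotCplx K →
  ∀ (μ : Measure (G K)) (F : Set (G K)), Fermat.Agent.LT.T5.IsFrame μ F →
    ∀ (π : HeckeEigensystem K ℂ) (S : Finset (HeightOneSpectrum (𝓞 K))) (φ : G K → ℂ),
      IsSForm π S φ → (∃ g : G K, φ g ≠ 0) →
      Fermat.Agent.LT.T5.innerD μ F φ φ ≠ 0

/-- **NODE STRIP.**  The strip identity: for forms `φ, φ'` as in A0 with eigensystems `π, π'` and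
a finite set `S` containing the bad places of both, there are `S`-forms `φ₁` of `π` (nonzero) and
`φ₁'` of `π'` (equal to `φ₁` if `φ = φ'`), an ideal `𝔪 ≠ 0`, a weight `G` and `c ≠ 0` with
`∫_F φ₁ φ̄₁' · cnt 𝔪 Y dμ = c · ∑_{𝔞 prime to S} c(𝔞) c̄'(𝔞) G(Y N𝔞)` for every `Y > 0`. -/
def StripC : Prop :=
  TotCplx K →
  ∀ (μ : Measure (G K)) (F : Set (G K)), Fermat.Agent.LT.T5.IsFrame μ F →
    ∀ (π π' : HeckeEigensystem K ℂ) (φ φ' : G K → ℂ),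
      IsSph0CuspFormFor π φ → IsSph0CuspFormFor π' φ' →
      ∀ S : Finset (HeightOneSpectrum (𝓞 K)), IsGoodOutside π S → IsGoodOutside π' S →
        ∃ (φ₁ φ₁' : G K → ℂ) (𝔪 : Ideal (𝓞 K)) (G₀ : ℝ → ℝ) (c : ℂ),
          IsSForm π S φ₁ ∧ IsSForm π' S φ₁' ∧ (∃ g : G K, φ₁ g ≠ 0) ∧ (φ = φ' → φ₁ = φ₁') ∧
          𝔪 ≠ ⊥ ∧ IsWeight G₀ ∧ c ≠ 0 ∧
          ∀ Y : ℝ, 0 < Y →
            ∫ g in F, φ₁ g * conj (φ₁' g) * (((cnt 𝔪 Y g : ℕ) : ℝ) : ℂ) ∂μ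
              = c * sSum (coef2 π.a π'.a (S : Set (HeightOneSpectrum (𝓞 K)))) G₀ Y

/-! ## The reductions -/

variable {K}

/-- Dominated convergence on the frame: `Y · ∫_F φ₁ φ̄₁' cnt_Y → κ ⟨φ₁, φ₁'⟩`. -/
theorem tendsto_strip {μ : Measure (G K)} {F : Set (G K)} (hF : Fermat.Agent.LT.T5.IsFrame μ F)
    {φ₁ φ₁' : G K → ℂ} (hc₁ : Continuous φ₁) (hc₁' : Continuous φ₁')
    (hb₁ : ∃ C : ℝ, ∀ g : G K, ‖φ₁ g‖ ≤ C) (hb₁' : ∃ C : ℝ, ∀ g : G K, ‖φ₁' g‖ ≤ C)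
    {𝔪 : Ideal (𝓞 K)} {κ : ℝ}
    (hmeas : ∀ Y : ℝ, 0 < Y → Measurable fun g : G K => (cnt 𝔪 Y g : ℝ))
    (hlim : ∀ g : G K, Tendsto (fun Y : ℝ => Y * (cnt 𝔪 Y g : ℝ)) (𝓝[>] (0 : ℝ)) (𝓝 κ))
    (hC : ∃ C : ℝ, ∀ (g : G K) (Y : ℝ), 0 < Y → Y ≤ 1 → Y * (cnt 𝔪 Y g : ℝ) ≤ C) :
    Tendsto (fun Y : ℝ => (Y : ℂ) *
        ∫ g in F, φ₁ g * conj (φ₁' g) * (((cnt 𝔪 Y g : ℕ) : ℝ) : ℂ) ∂μ)
      (𝓝[>] (0 : ℝ)) (𝓝 ((κ : ℂ) * Fermat.Agent.LT.T5.innerD μ F φ₁ φ₁')) := by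
  have : BorelSpace (G K) := ⟨rfl⟩
  obtain ⟨C₁, hC₁⟩ := hb₁
  obtain ⟨C₁', hC₁'⟩ := hb₁'
  obtain ⟨C, hC⟩ := hC
  have : IsFiniteMeasure (μ.restrict F) := ⟨by simpa using hF.finite⟩
  have hC₁0 : 0 ≤ C₁ := (norm_nonneg _).trans (hC₁ 1)
  have hC₁'0 : 0 ≤ C₁' := (norm_nonneg _).trans (hC₁' 1)
  -- the integrands
  have hrew : ∀ Y : ℝ, (Y : ℂ) * ∫ g in F, φ₁ g * conj (φ₁' g) * (((cnt 𝔪 Y g : ℕ) : ℝ) : ℂ) ∂μ
      = ∫ g in F, φ₁ g * conj (φ₁' g) * ((Y * (cnt 𝔪 Y g : ℝ) : ℝ) : ℂ) ∂μ := by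
    intro Y
    rw [← MeasureTheory.integral_const_mul]
    refine MeasureTheory.integral_congr_ae (Filter.Eventually.of_forall fun g => ?_)
    simp only [Complex.ofReal_mul]
    ring
  have hlimit : (κ : ℂ) * Fermat.Agent.LT.T5.innerD μ F φ₁ φ₁'
      = ∫ g in F, φ₁ g * conj (φ₁' g) * ((κ : ℝ) : ℂ) ∂μ := by
    unfold Fermat.Agent.LT.T5.innerD
    rw [← MeasureTheory.integral_const_mul]
    refine MeasureTheory.integral_congr_ae (Filter.Eventually.of_forall fun g => ?_)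
    simp only
    ring
  simp_rw [hrew]
  rw [hlimit]
  have hprod : Continuous fun g : G K => φ₁ g * conj (φ₁' g) :=
    hc₁.mul (Complex.continuous_conj.comp hc₁')
  have hIoc : ∀ᶠ Y : ℝ in 𝓝[>] (0 : ℝ), 0 < Y ∧ Y ≤ 1 := by
    have h1 : Set.Ioc (0 : ℝ) 1 ∈ 𝓝[>] (0 : ℝ) := Ioc_mem_nhdsGT one_pos
    exact Filter.mem_of_superset h1 fun Y hY => hY
  refine MeasureTheory.tendsto_integral_filter_of_dominated_convergence
    (fun _ => C₁ * C₁' * |C|) ?_ ?_ (MeasureTheory.integrable_const _) ?_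
  · refine hIoc.mono fun Y hY => ?_
    refine (hprod.aestronglyMeasurable).mul ?_
    have hm : Measurable fun g : G K => ((Y * (cnt 𝔪 Y g : ℝ) : ℝ) : ℂ) :=
      Complex.measurable_ofReal.comp ((hmeas Y hY.1).const_mul Y)
    exact hm.aestronglyMeasurable
  · refine hIoc.mono fun Y hY => Filter.Eventually.of_forall fun g => ?_
    rw [norm_mul, norm_mul, RCLike.norm_conj, Complex.norm_real, Real.norm_eq_abs]
    have h0 : 0 ≤ Y * (cnt 𝔪 Y g : ℝ) := mul_nonneg hY.1.le (Nat.cast_nonneg _)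
    have h1 : |Y * (cnt 𝔪 Y g : ℝ)| ≤ |C| := by
      rw [abs_of_nonneg h0]
      exact (hC g Y hY.1 hY.2).trans (le_abs_self C)
    have h2 : ‖φ₁ g‖ * ‖φ₁' g‖ ≤ C₁ * C₁' :=
      mul_le_mul (hC₁ g) (hC₁' g) (norm_nonneg _) hC₁0
    exact mul_le_mul h2 h1 (abs_nonneg _) (mul_nonneg hC₁0 hC₁'0)
  · refine Filter.Eventually.of_forall fun g => ?_
    refine Tendsto.const_mul _ ?_
    exact (Complex.continuous_ofReal.tendsto κ).comp (hlim g)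

/-- Not equal almost everywhere, outside a set good for both: some `a_v ≠ a'_v` outside `S`. -/
theorem exists_ne_of_not_aeq {π π' : HeckeEigensystem K ℂ}
    {S : Finset (HeightOneSpectrum (𝓞 K))} (hg : IsGoodOutside π S) (hg' : IsGoodOutside π' S)
    (hne : ¬ AEq π π') : ∃ v : HeightOneSpectrum (𝓞 K), v ∉ S ∧ π.a v ≠ π'.a v := by
  by_contra hcon
  push Not at hcon
  exact hne ⟨S, fun v hv => ⟨hcon v hv, by rw [(hg v hv).2.1, (hg' v hv).2.1]⟩⟩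

/-- **Reduction of `SmoothCrossC`.** -/
theorem smoothCrossC_of (hFr : ∃ (μ : Measure (G K)) (F : Set (G K)),
      Fermat.Agent.LT.T5.IsFrame μ F)
    (hStrip : StripC K) (hCount : CountC K) (hOrth : OrthC K) : SmoothCrossC K := by
  intro hcplx π π' hπ hπ' hne S hg hg'
  obtain ⟨μ, F, hF⟩ := hFr
  obtain ⟨φ, hφ⟩ := hπ
  obtain ⟨φ', hφ'⟩ := hπ'
  obtain ⟨φ₁, φ₁', 𝔪, G₀, c, h1, h1', -, -, h𝔪, hG, hc, hid⟩ :=
    hStrip hcplx μ F hF π π' φ φ' hφ hφ' S hg hg'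
  obtain ⟨κ, -, hmeas, hlim, hC⟩ := hCount hcplx 𝔪 h𝔪
  obtain ⟨v, hv, hav⟩ := exists_ne_of_not_aeq hg hg' hne
  have horth := hOrth hcplx μ F hF π π' S φ₁ φ₁' h1 h1' ⟨v, hv, hav⟩
  have hten := tendsto_strip hF h1.cont h1'.cont h1.bdd h1'.bdd hmeas hlim hC
  rw [horth, mul_zero] at hten
  refine ⟨G₀, hG, ?_⟩
  have hten2 : Tendsto (fun Y : ℝ => c⁻¹ * ((Y : ℂ) *
        ∫ g in F, φ₁ g * conj (φ₁' g) * (((cnt 𝔪 Y g : ℕ) : ℝ) : ℂ) ∂μ))
      (𝓝[>] (0 : ℝ)) (𝓝 (c⁻¹ * 0)) := hten.const_mul _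
  rw [mul_zero] at hten2
  refine hten2.congr' ?_
  refine eventually_nhdsWithin_of_forall fun Y hY => ?_
  beta_reduce
  rw [hid Y hY]
  field_simp

/-- **Reduction of `SmoothSelfC`.** -/
theorem smoothSelfC_of (hFr : ∃ (μ : Measure (G K)) (F : Set (G K)),
      Fermat.Agent.LT.T5.IsFrame μ F)
    (hStrip : StripC K) (hCount : CountC K) (hNorm : NormPosC K) : SmoothSelfC K := by
  intro hcplx π hπ S hg
  obtain ⟨μ, F, hF⟩ := hFr
  obtain ⟨φ, hφ⟩ := hπ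
  obtain ⟨φ₁, φ₁', 𝔪, G₀, c, h1, -, hne1, heq, h𝔪, hG, hc, hid⟩ :=
    hStrip hcplx μ F hF π π φ φ hφ hφ S hg hg
  obtain rfl : φ₁ = φ₁' := heq rfl
  obtain ⟨κ, hκ, hmeas, hlim, hC⟩ := hCount hcplx 𝔪 h𝔪
  have hnorm := hNorm hcplx μ F hF π S φ₁ h1 hne1
  have hten := tendsto_strip hF h1.cont h1.cont h1.bdd h1.bdd hmeas hlim hC
  refine ⟨G₀, c⁻¹ * ((κ : ℂ) * Fermat.Agent.LT.T5.innerD μ F φ₁ φ₁), hG, ?_, ?_⟩
  · exact mul_ne_zero (inv_ne_zero hc)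
      (mul_ne_zero (by exact_mod_cast hκ.ne') hnorm)
  · have hten2 := hten.const_mul c⁻¹
    refine hten2.congr' ?_
    refine eventually_nhdsWithin_of_forall fun Y hY => ?_
    beta_reduce
    rw [hid Y hY]
    field_simp

/-- **`T7.RigidC K` from the leaves of levels 2 and 3.** -/
theorem rigidC_of_aut (hFr : ∃ (μ : Measure (G K)) (F : Set (G K)),
      Fermat.Agent.LT.T5.IsFrame μ F)
    (hP : PlaceSumC K) (hE : EulerLogC K) (hA : AbelC K)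
    (hStrip : StripC K) (hCount : CountC K) (hOrth : OrthC K) (hNorm : NormPosC K) :
    RigidC K :=
  rigidC_of_pkg hP hE hA (smoothSelfC_of hFr hStrip hCount hNorm)
    (smoothCrossC_of hFr hStrip hCount hOrth)

end Fermat.Agent.LT.T7.Rigid

end
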