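import Mathlib
import Fermat.Agent.LT.T3.Spec
import Fermat.Agent.LT.T7.H62.RigidAut

/-!
# Row LT, tower T7, NODE T7.14 `RigidC` -- SUB-SPEC, LEVEL 4 = cut of `StripC`
(sub-architect helper62)

OFF-MAIN.  Definitions, frozen Props, PROVED assembly.  No `sorry`, nothing assumed.
-/

set_option autoImplicit false

open AutomorphicForm IsDedekindDomain NumberField Filter Topology MeasureTheory
open scoped ComplexConjugate

noncomputable section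

namespace Fermat.Agent.LT.T7.Rigid

open Fermat.Agent.LT.H556 Fermat.Agent.LT.H556.A0 Fermat.Agent.LT.T7

attribute [local instance] Fermat.Agent.LT.T5.instMeasurableSpaceG

variable {K : Type} [Field K] [NumberField K]

/-! ## Vocabulary -/

/-- `diag(y, 1)` for an idele `y`. -/
def dgA (y : (Adl K)ˣ) : G K :=
  ⟨!![(y : Adl K), 0; 0, 1], !![((y⁻¹ : (Adl K)ˣ) : Adl K), 0; 0, 1],
    by ext i j; fin_cases i <;> fin_cases j <;> simp [Matrix.mul_apply, Fin.sum_univ_two],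
    by ext i j; fin_cases i <;> fin_cases j <;> simp [Matrix.mul_apply, Fin.sum_univ_two]⟩

/-- The Whittaker function of `φ` for the character `ψ`:
`W_φ(g) = ∫_D φ(n(x) g) ψ̄(x) dν(x)`, `D` a fundamental domain of `K` in `𝔸_K`. -/
def whit {m : MeasurableSpace (Adl K)} (ψ : AddChar (Adl K) Circle) (ν : Measure (Adl K))
    (D : Set (Adl K)) (φ : G K → ℂ) (g : G K) : ℂ :=
  ∫ x in D, φ (Fermat.Agent.LT.T3.unip K x * g) * conj ((ψ x : Circle) : ℂ) ∂ν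

/-- The exponent of the idele `y` at the finite place `v`: `|y_v|_v = q_v^{-ordI v y}`. -/
def ordI (v : HeightOneSpectrum (𝓞 K)) (y : (Adl K)ˣ) : ℤ :=
  -(WithZero.log (Valued.v ((y : Adl K).2 v)))

/-- The local factor of the Whittaker function at a good place:
`q^{-m/2} s_m(a)` for `m ≥ 0`, and `0` for `m < 0`. -/
def locFactor (v : HeightOneSpectrum (𝓞 K)) (a : ℂ) (m : ℤ) : ℂ :=
  if 0 ≤ m then ((nv v ^ (-(m : ℝ) / 2) : ℝ) : ℂ) * hpoly a m.toNat else 0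

/-- `K₀(t) = ∫₀^∞ exp(-t cosh u) du`, the modified Bessel function of the second kind of
order `0`. -/
def besselK0 (t : ℝ) : ℝ := ∫ u in Set.Ioi (0 : ℝ), Real.exp (-t * Real.cosh u)

/-- The archimedean profile `∏_w r_w K₀(c_w r_w)`, `r_w = |y_w|`. -/
def archProfile (c : InfinitePlace K → ℝ) (y : (Adl K)ˣ) : ℝ :=
  ∏ w : InfinitePlace K, ‖(y : Adl K).1 w‖ * besselK0 (c w * ‖(y : Adl K).1 w‖)

/-- The localisation condition at `S`: `y_v ∈ y₀_v (1 + 𝔪 𝒪_v)` for every `v ∈ S`. -/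
def InCell (S : Finset (HeightOneSpectrum (𝓞 K))) (𝔪 : Ideal (𝓞 K)) (y₀ y : (Adl K)ˣ) : Prop :=
  ∀ v ∈ S, ∃ u ∈ idealClosure 𝔪 v, (y : Adl K).2 v = (y₀ : Adl K).2 v * (1 + u)

open Classical in
/-- The model Kirillov function:
`archProfile c y · 1[y ∈ cell] · ∏_{v ∉ S} q_v^{-m_v/2} s_{m_v}(a_v)`. -/
def kir (a : HeightOneSpectrum (𝓞 K) → ℂ) (S : Finset (HeightOneSpectrum (𝓞 K)))
    (𝔪 : Ideal (𝓞 K)) (y₀ : (Adl K)ˣ) (c : InfinitePlace K → ℝ) (y : (Adl K)ˣ) : ℂ :=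
  ((archProfile c y : ℝ) : ℂ) * (if InCell S 𝔪 y₀ y then 1 else 0)
    * ∏ᶠ v : HeightOneSpectrum (𝓞 K), (if v ∈ S then 1 else locFactor v (a v) (ordI v y))

/-- The archimedean weight
`∫_{r ∈ (0,∞)^{places}, ∏ r_w^{[K_w:ℝ]} ≥ T} ∏_w K₀(c_w r_w)² ∏_w dr_w / r_w`. -/
def archG (c : InfinitePlace K → ℝ) (T : ℝ) : ℝ :=
  ∫ r : InfinitePlace K → ℝ in
      {r | (∀ w, 0 < r w) ∧ T ≤ ∏ w : InfinitePlace K, r w ^ w.mult},
    ∏ w : InfinitePlace K, besselK0 (c w * r w) ^ 2 / r w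

/-- `φ` is right invariant under `U(𝔪)`. -/
def IsLevelInv (𝔪 : Ideal (𝓞 K)) (φ : G K → ℂ) : Prop :=
  ∀ u : G K, InLevelGroup 𝔪 u → ∀ g : G K, φ (g * u) = φ g

/-- `ψ` is unramified at every place outside `S`. -/
def IsUnramOutside (ψ : AddChar (Adl K) Circle) (S : Finset (HeightOneSpectrum (𝓞 K))) :
    Prop :=
  ∀ v : HeightOneSpectrum (𝓞 K), v ∉ S →
    (∀ x : Adl K, Fermat.Agent.LT.T3.IsLocAdeleAt K v x →
      x.2 v ∈ v.adicCompletionIntegers K → ψ x = 1) ∧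
    ∃ x : Adl K, Fermat.Agent.LT.T3.IsLocAdeleAt K v x ∧
      Valued.v (x.2 v) = WithZero.exp (1 : ℤ) ∧ ψ x ≠ 1

/-- The prime factors of `𝔪` are exactly the places of `S`. -/
def IsSupp (S : Finset (HeightOneSpectrum (𝓞 K))) (𝔪 : Ideal (𝓞 K)) : Prop :=
  𝔪 ≠ ⊥ ∧ ∀ v : HeightOneSpectrum (𝓞 K), v.asIdeal ∣ 𝔪 ↔ v ∈ S

/-! ## The Props of level 4 -/

variable (K)

/-- **LEAF FOLD-WHIT** (folding over `B(K) \ GL₂(K)`, Haar measure in Iwasawa coordinates,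
Parseval on `K \ 𝔸_K`, unfolding of `Kˣ`).  For a frame `(μ, F)`, a non-degenerate standard
character `ψ`, Haar measures `ν` of `𝔸_K` (fundamental domain `D`) and `τ` of the ideles and an
ideal `𝔪 ≠ 0` there is `c₁ > 0` such that for all `S`-forms `φ₁, φ₁'` right invariant under
`U(𝔪)` and all `Y > 0`:
`∫_F φ₁ φ̄₁' · cnt 𝔪 Y dμ = c₁ ∫_{|y| ≥ Y} W₁(a(y)) W̄₁'(a(y)) |y|⁻¹ dτ(y)`. -/
def FoldWhitC : Prop :=
  letI : MeasurableSpace (Adl K) := borel (Adl K)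
  letI : MeasurableSpace (Adl K)ˣ := borel (Adl K)ˣ
  TotCplx K →
  ∀ (μ : Measure (G K)) (F : Set (G K)), Fermat.Agent.LT.T5.IsFrame μ F →
  ∀ ψ : AddChar (Adl K) Circle, Fermat.Agent.LT.T3.IsStdChar K ψ →
    Fermat.Agent.LT.T3.IsNonDeg K ψ →
  ∀ (ν : Measure (Adl K)) (D : Set (Adl K)), ν.IsAddHaarMeasure → MeasurableSet D →
    IsAddFundamentalDomain ((algebraMap K (Adl K)).toAddMonoidHom.range) D ν → ν D < ⊤ →
  ∀ τ : Measure (Adl K)ˣ, τ.IsHaarMeasure →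
  ∀ (S : Finset (HeightOneSpectrum (𝓞 K))) (𝔪 : Ideal (𝓞 K)), IsSupp S 𝔪 →
    ∃ c₁ : ℝ, 0 < c₁ ∧
      ∀ (π π' : HeckeEigensystem K ℂ) (φ₁ φ₁' : G K → ℂ),
        IsSForm π S φ₁ → IsSForm π' S φ₁' → IsLevelInv 𝔪 φ₁ → IsLevelInv 𝔪 φ₁' →
        ∀ Y : ℝ, 0 < Y →
          ∫ g in F, φ₁ g * conj (φ₁' g) * (((cnt 𝔪 Y g : ℕ) : ℝ) : ℂ) ∂μ
            = (c₁ : ℂ) * ∫ y in {y : (Adl K)ˣ | Y ≤ Fermat.Agent.LT.T5.adNorm (y : Adl K)},
                whit ψ ν D φ₁ (dgA y) * conj (whit ψ ν D φ₁' (dgA y))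
                  * (((Fermat.Agent.LT.T5.adNorm (y : Adl K))⁻¹ : ℝ) : ℂ) ∂τ

/-- **NODE WHIT-FORM** (localisation at `S` + Hecke recursion + archimedean uniqueness).  For
forms `φ, φ'` as in A0 and a finite set `S` containing the bad places of both and the places
where `ψ` is ramified: there are `S`-forms `φ₁` of `π` (nonzero), `φ₁'` of `π'` (equal to `φ₁` if
`φ = φ'`), right invariant under `U(𝔪)`, whose Whittaker functions on the torus are non-zero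
multiples of the model Kirillov functions `kir` (same cell, same archimedean constants). -/
def WhitFormC : Prop :=
  letI : MeasurableSpace (Adl K) := borel (Adl K)
  TotCplx K →
  ∀ ψ : AddChar (Adl K) Circle, Fermat.Agent.LT.T3.IsStdChar K ψ →
    Fermat.Agent.LT.T3.IsNonDeg K ψ →
  ∀ (ν : Measure (Adl K)) (D : Set (Adl K)), ν.IsAddHaarMeasure → MeasurableSet D →
    IsAddFundamentalDomain ((algebraMap K (Adl K)).toAddMonoidHom.range) D ν → ν D < ⊤ →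
  ∀ (π π' : HeckeEigensystem K ℂ) (φ φ' : G K → ℂ),
    IsSph0CuspFormFor π φ → IsSph0CuspFormFor π' φ' →
    ∀ S : Finset (HeightOneSpectrum (𝓞 K)), IsUnramOutside ψ S →
      IsGoodOutside π S → IsGoodOutside π' S →
      ∃ (φ₁ φ₁' : G K → ℂ) (𝔪 : Ideal (𝓞 K)) (y₀ : (Adl K)ˣ) (c : InfinitePlace K → ℝ)
        (w₀ w₀' : ℂ),
        IsSForm π S φ₁ ∧ IsSForm π' S φ₁' ∧ (∃ g : G K, φ₁ g ≠ 0) ∧ (φ = φ' → φ₁ = φ₁') ∧
        IsSupp S 𝔪 ∧ IsLevelInv 𝔪 φ₁ ∧ IsLevelInv 𝔪 φ₁' ∧ (∀ w, 0 < c w) ∧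
        w₀ ≠ 0 ∧ w₀' ≠ 0 ∧
        ∀ y : (Adl K)ˣ,
          whit ψ ν D φ₁ (dgA y) = w₀ * kir π.a S 𝔪 y₀ c y ∧
          whit ψ ν D φ₁' (dgA y) = w₀' * kir π'.a S 𝔪 y₀ c y

/-- **LEAF IDELE-SUM** (Haar measure of the ideles = archimedean Haar measure × counting
measure on the ideals).  The integral of a product of two model Kirillov functions over
`|y| ≥ Y` is the smoothed sum with the archimedean weight `archG`:
`∫_{|y| ≥ Y} kir_a(y) conj kir_{a'}(y) |y|⁻¹ dτ(y)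
   = c₂ ∑_{𝔞 prime to S} c(𝔞) c̄'(𝔞) archG c (Y N𝔞 / t₀)`. -/
def IdeleSumC : Prop :=
  letI : MeasurableSpace (Adl K)ˣ := borel (Adl K)ˣ
  TotCplx K →
  ∀ τ : Measure (Adl K)ˣ, τ.IsHaarMeasure →
  ∀ (S : Finset (HeightOneSpectrum (𝓞 K))) (𝔪 : Ideal (𝓞 K)) (y₀ : (Adl K)ˣ)
    (c : InfinitePlace K → ℝ), IsSupp S 𝔪 → (∀ w, 0 < c w) →
    ∃ c₂ t₀ : ℝ, 0 < c₂ ∧ 0 < t₀ ∧
      ∀ a a' : HeightOneSpectrum (𝓞 K) → ℂ,
        (∀ v : HeightOneSpectrum (𝓞 K), v ∉ S → ‖a v‖ ≤ 2 ∧ ‖a' v‖ ≤ 2) →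
        ∀ Y : ℝ, 0 < Y →
          ∫ y in {y : (Adl K)ˣ | Y ≤ Fermat.Agent.LT.T5.adNorm (y : Adl K)},
              kir a S 𝔪 y₀ c y * conj (kir a' S 𝔪 y₀ c y)
                * (((Fermat.Agent.LT.T5.adNorm (y : Adl K))⁻¹ : ℝ) : ℂ) ∂τ
            = (c₂ : ℂ) * sSum (coef2 a a' (S : Set (HeightOneSpectrum (𝓞 K))))
                (fun T => archG c (T / t₀)) Y

/-- **LEAF WEIGHT** (Mathlib only; `K₀(t) ≤ C (1 + |log t|) e^{-t}`).  The archimedean weight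
is a weight. -/
def WeightC : Prop :=
  TotCplx K →
  ∀ (c : InfinitePlace K → ℝ) (t₀ : ℝ), (∀ w, 0 < c w) → 0 < t₀ →
    IsWeight (fun T => archG c (T / t₀))

/-- `StripC` for the finite sets `S` containing a fixed finite set `T₀` (the places where the
additive character is ramified). -/
def StripOnC (T₀ : Finset (HeightOneSpectrum (𝓞 K))) : Prop :=
  TotCplx K →
  ∀ (μ : Measure (G K)) (F : Set (G K)), Fermat.Agent.LT.T5.IsFrame μ F →
    ∀ (π π' : HeckeEigensystem K ℂ) (φ φ' : G K → ℂ),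
      IsSph0CuspFormFor π φ → IsSph0CuspFormFor π' φ' →
      ∀ S : Finset (HeightOneSpectrum (𝓞 K)), T₀ ⊆ S → IsGoodOutside π S →
        IsGoodOutside π' S →
        ∃ (φ₁ φ₁' : G K → ℂ) (𝔪 : Ideal (𝓞 K)) (G₀ : ℝ → ℝ) (c : ℂ),
          IsSForm π S φ₁ ∧ IsSForm π' S φ₁' ∧ (∃ g : G K, φ₁ g ≠ 0) ∧ (φ = φ' → φ₁ = φ₁') ∧
          𝔪 ≠ ⊥ ∧ IsWeight G₀ ∧ c ≠ 0 ∧
          ∀ Y : ℝ, 0 < Y →
            ∫ g in F, φ₁ g * conj (φ₁' g) * (((cnt 𝔪 Y g : ℕ) : ℝ) : ℂ) ∂μ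
              = c * sSum (coef2 π.a π'.a (S : Set (HeightOneSpectrum (𝓞 K)))) G₀ Y

/-! ## The assembly -/

variable {K}

theorem IsUnramOutside.mono {ψ : AddChar (Adl K) Circle}
    {S S₁ : Finset (HeightOneSpectrum (𝓞 K))} (h : IsUnramOutside ψ S) (hSS : S ⊆ S₁) :
    IsUnramOutside ψ S₁ :=
  fun v hv => h v (fun hvS => hv (hSS hvS))

/-- **Assembly of level 4**: `StripOnC` from `FoldWhitC`, `WhitFormC`, `IdeleSumC`, `WeightC`
and the existence of the additive data. -/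
theorem stripOnC_of
    (hψ : ∃ ψ : AddChar (Adl K) Circle, Fermat.Agent.LT.T3.IsStdChar K ψ ∧
      Fermat.Agent.LT.T3.IsNonDeg K ψ ∧ Fermat.Agent.LT.T3.IsUnramAE K ψ)
    (hν : letI : MeasurableSpace (Adl K) := borel (Adl K)
      ∃ (ν : Measure (Adl K)) (D : Set (Adl K)), ν.IsAddHaarMeasure ∧ MeasurableSet D ∧
        IsAddFundamentalDomain ((algebraMap K (Adl K)).toAddMonoidHom.range) D ν ∧ ν D < ⊤)
    (hτ : letI : MeasurableSpace (Adl K)ˣ := borel (Adl K)ˣ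
      ∃ τ : Measure (Adl K)ˣ, τ.IsHaarMeasure)
    (hFW : FoldWhitC K) (hWF : WhitFormC K) (hIS : IdeleSumC K) (hW : WeightC K) :
    ∃ T₀ : Finset (HeightOneSpectrum (𝓞 K)), StripOnC K T₀ := by
  obtain ⟨ψ, hstd, hnd, T₀, hT₀⟩ := hψ
  refine ⟨T₀, ?_⟩
  intro hcplx μ F hF π π' φ φ' hφ hφ' S hTS hg hg'
  let _ : MeasurableSpace (Adl K) := borel (Adl K)
  let _ : MeasurableSpace (Adl K)ˣ := borel (Adl K)ˣ
  obtain ⟨ν, D, hνH, hDm, hDf, hDfin⟩ := hν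
  obtain ⟨τ, hτH⟩ := hτ
  have hun : IsUnramOutside ψ S := IsUnramOutside.mono hT₀ hTS
  obtain ⟨φ₁, φ₁', 𝔪, y₀, c, w₀, w₀', h1, h1', hne, heq, hsupp, hl, hl', hc, hw₀, hw₀', hform⟩ :=
    hWF hcplx ψ hstd hnd ν D hνH hDm hDf hDfin π π' φ φ' hφ hφ' S hun hg hg'
  obtain ⟨c₁, hc₁, hfold⟩ := hFW hcplx μ F hF ψ hstd hnd ν D hνH hDm hDf hDfin τ hτH S 𝔪 hsupp
  obtain ⟨c₂, t₀, hc₂, ht₀, hsum⟩ := hIS hcplx τ hτH S 𝔪 y₀ c hsupp hc
  refine ⟨φ₁, φ₁', 𝔪, fun T => archG c (T / t₀), (c₁ : ℂ) * (w₀ * conj w₀') * (c₂ : ℂ),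
    h1, h1', hne, heq, hsupp.1, hW hcplx c t₀ hc ht₀, ?_, ?_⟩
  · refine mul_ne_zero (mul_ne_zero (by exact_mod_cast hc₁.ne') (mul_ne_zero hw₀ ?_))
      (by exact_mod_cast hc₂.ne')
    simpa using hw₀'
  · intro Y hY
    rw [hfold π π' φ₁ φ₁' h1 h1' hl hl' Y hY]
    have hint : ∫ y in {y : (Adl K)ˣ | Y ≤ Fermat.Agent.LT.T5.adNorm (y : Adl K)},
          whit ψ ν D φ₁ (dgA y) * conj (whit ψ ν D φ₁' (dgA y))
            * (((Fermat.Agent.LT.T5.adNorm (y : Adl K))⁻¹ : ℝ) : ℂ) ∂τ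
        = (w₀ * conj w₀') * ∫ y in {y : (Adl K)ˣ | Y ≤ Fermat.Agent.LT.T5.adNorm (y : Adl K)},
            kir π.a S 𝔪 y₀ c y * conj (kir π'.a S 𝔪 y₀ c y)
              * (((Fermat.Agent.LT.T5.adNorm (y : Adl K))⁻¹ : ℝ) : ℂ) ∂τ := by
      rw [← MeasureTheory.integral_const_mul]
      refine MeasureTheory.integral_congr_ae (Filter.Eventually.of_forall fun y => ?_)
      simp only
      rw [(hform y).1, (hform y).2, map_mul]
      ring
    rw [hint, hsum π.a π'.a (fun v hv => ⟨(hg v (fun h => hv h)).2.2, (hg' v hv).2.2⟩) Y hY]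
    ring

/-! ## Levels 2 and 3 for the sets `S ⊇ T₀`

The Props `SmoothSelfC`, `SmoothCrossC`, `StripC` of `RigidPkg.lean`, `RigidAut.lean` ask for
EVERY finite set `S` containing the bad places.  The proof of the strip identity is simpler if
`S` also contains the finitely many places `T₀` where the additive character `ψ` is ramified;
the reductions below are the reductions of levels 2 and 3 for these sets (same proofs; the set
`S₁` of `exists_good_finset` is enlarged by `T₀`). -/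

variable (K)

/-- `SmoothSelfC` for the sets `S ⊇ T₀`. -/
def SmoothSelfOnC (T₀ : Finset (HeightOneSpectrum (𝓞 K))) : Prop :=
  TotCplx K →
  ∀ π : HeckeEigensystem K ℂ, A0.IsCuspAdelicSph0 K π →
    ∀ S : Finset (HeightOneSpectrum (𝓞 K)), T₀ ⊆ S → IsGoodOutside π S →
      ∃ (G : ℝ → ℝ) (L : ℂ), IsWeight G ∧ L ≠ 0 ∧
        Tendsto (fun Y : ℝ => (Y : ℂ) *
            sSum (coef2 π.a π.a (S : Set (HeightOneSpectrum (𝓞 K)))) G Y)
          (𝓝[>] (0 : ℝ)) (𝓝 L)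

/-- `SmoothCrossC` for the sets `S ⊇ T₀`. -/
def SmoothCrossOnC (T₀ : Finset (HeightOneSpectrum (𝓞 K))) : Prop :=
  TotCplx K →
  ∀ π π' : HeckeEigensystem K ℂ, A0.IsCuspAdelicSph0 K π → A0.IsCuspAdelicSph0 K π' →
    ¬ AEq π π' →
    ∀ S : Finset (HeightOneSpectrum (𝓞 K)), T₀ ⊆ S → IsGoodOutside π S →
      IsGoodOutside π' S →
      ∃ G : ℝ → ℝ, IsWeight G ∧
        Tendsto (fun Y : ℝ => (Y : ℂ) *
            sSum (coef2 π.a π'.a (S : Set (HeightOneSpectrum (𝓞 K)))) G Y)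
          (𝓝[>] (0 : ℝ)) (𝓝 0)

variable {K}

/-- A finite set containing `S`, `T₀`, the bad places of `π` and the places of norm `< Q`. -/
theorem exists_good_finset_on (T₀ : Finset (HeightOneSpectrum (𝓞 K)))
    (π : HeckeEigensystem K ℂ) (ht : TrivCentral π)
    (S : Finset (HeightOneSpectrum (𝓞 K)))
    (hS : ∀ v : HeightOneSpectrum (𝓞 K), v ∉ S → ‖π.a v‖ ≤ 2) (Q : ℕ) :
    ∃ S₁ : Finset (HeightOneSpectrum (𝓞 K)), S ⊆ S₁ ∧ T₀ ⊆ S₁ ∧ IsGoodOutside π S₁ ∧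
      ∀ v : HeightOneSpectrum (𝓞 K), v ∉ S₁ → Q ≤ Ideal.absNorm v.asIdeal := by
  classical
  obtain ⟨S₁, hSS, hgood, hQ⟩ := exists_good_finset π ht S hS Q
  refine ⟨S₁ ∪ T₀, hSS.trans Finset.subset_union_left, Finset.subset_union_right,
    hgood.mono Finset.subset_union_left, fun v hv => hQ v (fun h => hv ?_)⟩
  exact Finset.mem_union_left _ h

/-- **Reduction of `SmoothSelfOnC`.** -/
theorem smoothSelfOnC_of {T₀ : Finset (HeightOneSpectrum (𝓞 K))} (hFr : ∃ (μ : Measure (G K)) (F : Set (G K)),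
      Fermat.Agent.LT.T5.IsFrame μ F)
    (hStrip : StripOnC K T₀) (hCount : CountC K) (hNorm : NormPosC K) :
    SmoothSelfOnC K T₀ := by
  intro hcplx π hπ S hTS hg
  obtain ⟨μ, F, hF⟩ := hFr
  obtain ⟨φ, hφ⟩ := hπ
  obtain ⟨φ₁, φ₁', 𝔪, G₀, c, h1, -, hne1, heq, h𝔪, hG, hc, hid⟩ :=
    hStrip hcplx μ F hF π π φ φ hφ hφ S hTS hg hg
  obtain rfl : φ₁ = φ₁' := heq rfl
  obtain ⟨κ, hκ, hmeas, hlim, hC⟩ := hCount hcplx 𝔪 h𝔪
  have hnorm := hNorm hcplx μ F hF π S φ₁ h1 hne1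
  have hten := tendsto_strip hF h1.cont h1.cont h1.bdd h1.bdd hmeas hlim hC
  refine ⟨G₀, c⁻¹ * ((κ : ℂ) * Fermat.Agent.LT.T5.innerD μ F φ₁ φ₁), hG, ?_, ?_⟩
  · exact mul_ne_zero (inv_ne_zero hc)
      (mul_ne_zero (by exact_mod_cast hκ.ne') hnorm)
  · have hten2 := hten.const_mul c⁻¹
    refine hten2.congr' ?_
    refine eventually_nhdsWithin_of_forall fun Y hY => ?_
    beta_reduce
    rw [hid Y hY]
    field_simp

/-- **Reduction of `SmoothCrossOnC`.** -/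
theorem smoothCrossOnC_of {T₀ : Finset (HeightOneSpectrum (𝓞 K))} (hFr : ∃ (μ : Measure (G K)) (F : Set (G K)),
      Fermat.Agent.LT.T5.IsFrame μ F)
    (hStrip : StripOnC K T₀) (hCount : CountC K) (hOrth : OrthC K) :
    SmoothCrossOnC K T₀ := by
  intro hcplx π π' hπ hπ' hne S hTS hg hg'
  obtain ⟨μ, F, hF⟩ := hFr
  obtain ⟨φ, hφ⟩ := hπ
  obtain ⟨φ', hφ'⟩ := hπ'
  obtain ⟨φ₁, φ₁', 𝔪, G₀, c, h1, h1', -, -, h𝔪, hG, hc, hid⟩ :=
    hStrip hcplx μ F hF π π' φ φ' hφ hφ' S hTS hg hg'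
  obtain ⟨κ, -, hmeas, hlim, hC⟩ := hCount hcplx 𝔪 h𝔪
  obtain ⟨v, hv, hav⟩ := exists_ne_of_not_aeq hg hg' hne
  have horth := hOrth hcplx μ F hF π π' S φ₁ φ₁' h1 h1' ⟨v, hv, hav⟩
  have hten := tendsto_strip hF h1.cont h1'.cont h1.bdd h1'.bdd hmeas hlim hC
  rw [horth, mul_zero] at hten
  refine ⟨G₀, hG, ?_⟩
  have hten2 : Tendsto (fun Y : ℝ => c⁻¹ * ((Y : ℂ) *
        ∫ g in F, φ₁ g * conj (φ₁' g) * (((cnt 𝔪 Y g : ℕ) : ℝ) : ℂ) ∂μ))
      (𝓝[>] (0 : ℝ)) (𝓝 (c⁻¹ * 0)) := hten.const_mul _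
  rw [mul_zero] at hten2
  refine hten2.congr' ?_
  refine eventually_nhdsWithin_of_forall fun Y hY => ?_
  beta_reduce
  rw [hid Y hY]
  field_simp

/-- **Reduction of `RSLowerC`**, sets `S ⊇ T₀`. -/
theorem rsLowerC_of_on {T₀ : Finset (HeightOneSpectrum (𝓞 K))} (hP : PlaceSumC K)
    (hE : EulerLogC K) (hA : AbelC K) (hSm : SmoothSelfOnC K T₀) : RSLowerC K := by
  intro hcplx π hπ ht S hSb
  obtain ⟨Q₀, hQ⟩ := hE hP
  obtain ⟨S₁, hSS, hTS, hgood, hQ₁⟩ := exists_good_finset_on T₀ π ht S hSb Q₀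
  obtain ⟨hsummable, C, hC⟩ := hQ π.a π.a S₁ (fun v hv => ⟨hQ₁ v hv, (hgood v hv).2.2,
    (hgood v hv).2.2⟩)
  obtain ⟨G, L, hG, hL, hten⟩ := hSm hcplx π hπ S₁ hTS hgood
  obtain ⟨m, hm, hlim⟩ := hA _ G L hG (coef2_bot _ _ _) hsummable hten
  have hpos : 0 < ‖L / (m : ℂ)‖ :=
    norm_pos_iff.mpr (div_ne_zero hL (by exact_mod_cast hm.ne'))
  set c₀ : ℝ := ‖L / (m : ℂ)‖ / 2 with hc₀
  have hc₀pos : 0 < c₀ := by positivity
  have hev : ∀ᶠ s in 𝓝[>] (1 : ℝ),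
      c₀ < ‖((s - 1 : ℝ) : ℂ) * dSer (coef2 π.a π.a (S₁ : Set (HeightOneSpectrum (𝓞 K)))) s‖ :=
    hlim.norm.eventually (lt_mem_nhds (half_lt_self hpos))
  obtain ⟨δ, hδ, hδ'⟩ := exists_delta_of_eventually hev
  refine ⟨max (C - Real.log c₀) (Real.log (1 / min δ 1)), fun s hs1 hs2 => ?_⟩
  -- summability of the two families
  have hsumS := summable_indicator_of_bound hP (S : Set (HeightOneSpectrum (𝓞 K)))
    (fun v => ‖π.a v‖ ^ 2) 4 (fun v hv => by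
      have h := hSb v (by simpa using hv)
      rw [abs_of_nonneg (sq_nonneg _)]
      nlinarith [norm_nonneg (π.a v)]) hs1
  have hsumS₁ := summable_indicator_of_bound hP (S₁ : Set (HeightOneSpectrum (𝓞 K)))
    (fun v => ‖π.a v‖ ^ 2) 4 (fun v hv => by
      have h := (hgood v (by simpa using hv)).2.2
      rw [abs_of_nonneg (sq_nonneg _)]
      nlinarith [norm_nonneg (π.a v)]) hs1
  have hmono := wSum_mono (S : Set (HeightOneSpectrum (𝓞 K))) (S₁ : Set (HeightOneSpectrum (𝓞 K)))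
    (by exact_mod_cast hSS) (fun v => ‖π.a v‖ ^ 2) (fun v _ => sq_nonneg _) s hsumS hsumS₁
  have hfun : (fun v : HeightOneSpectrum (𝓞 K) => (π.a v * conj (π.a v)).re)
      = fun v => ‖π.a v‖ ^ 2 := funext fun v => re_mul_conj_self _
  by_cases hsδ : s < 1 + min δ 1
  · have hs3 : s < 1 + δ := lt_of_lt_of_le hsδ (by linarith [min_le_left δ 1])
    have h1 := hδ' s hs1 hs3
    obtain ⟨hne, habs⟩ := hC s hs1 hs2
    rw [hfun] at habs
    have hs0 : 0 < s - 1 := by linarith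
    rw [norm_mul, Complex.norm_real, Real.norm_eq_abs, abs_of_pos hs0] at h1
    have hDpos : 0 < ‖dSer (coef2 π.a π.a (S₁ : Set (HeightOneSpectrum (𝓞 K)))) s‖ :=
      norm_pos_iff.mpr hne
    have h2 : c₀ * (1 / (s - 1))
        < ‖dSer (coef2 π.a π.a (S₁ : Set (HeightOneSpectrum (𝓞 K)))) s‖ := by
      rw [mul_one_div, div_lt_iff₀ hs0]
      linarith
    have h3 : Real.log (c₀ * (1 / (s - 1)))
        < Real.log ‖dSer (coef2 π.a π.a (S₁ : Set (HeightOneSpectrum (𝓞 K)))) s‖ :=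
      Real.log_lt_log (by positivity) h2
    rw [Real.log_mul hc₀pos.ne' (by positivity)] at h3
    have h4 := (abs_le.mp habs).2
    have h5 := le_max_left (C - Real.log c₀) (Real.log (1 / min δ 1))
    linarith
  · have hmin : 0 < min δ 1 := lt_min hδ one_pos
    have hs4 : min δ 1 ≤ s - 1 := by linarith [not_lt.mp hsδ]
    have h0 : 0 ≤ wSum (S : Set (HeightOneSpectrum (𝓞 K))) (fun v => ‖π.a v‖ ^ 2) s := by
      unfold wSum
      refine tsum_nonneg fun v => Set.indicator_nonneg (fun v _ => ?_) v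
      exact mul_nonneg (sq_nonneg _) (nv_rpow_nonneg v s)
    have h6 : Real.log (1 / (s - 1)) ≤ Real.log (1 / min δ 1) :=
      Real.log_le_log (by positivity) (one_div_le_one_div_of_le hmin hs4)
    have h5 := le_max_right (C - Real.log c₀) (Real.log (1 / min δ 1))
    linarith

/-- **Reduction of `RSCrossC`**, sets `S ⊇ T₀`. -/
theorem rsCrossC_of_on {T₀ : Finset (HeightOneSpectrum (𝓞 K))} (hP : PlaceSumC K)
    (hE : EulerLogC K) (hA : AbelC K) (hSm : SmoothCrossOnC K T₀) : RSCrossC K := by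
  intro hcplx π π' hπ hπ' ht ht' hne S hSb M
  classical
  obtain ⟨Q₀, hQ⟩ := hE hP
  obtain ⟨S₁, hSS₁, hTS₁, hgood₁, hQ₁⟩ :=
    exists_good_finset_on T₀ π ht S (fun v hv => (hSb v hv).1) Q₀
  obtain ⟨S₂, hSS₂, -, hgood₂, -⟩ :=
    exists_good_finset_on T₀ π' ht' S (fun v hv => (hSb v hv).2) Q₀
  set T : Finset (HeightOneSpectrum (𝓞 K)) := S₁ ∪ S₂ with hT
  have hS₁T : S₁ ⊆ T := Finset.subset_union_left
  have hS₂T : S₂ ⊆ T := Finset.subset_union_right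
  have hST : S ⊆ T := hSS₁.trans hS₁T
  have hg : IsGoodOutside π T := hgood₁.mono hS₁T
  have hg' : IsGoodOutside π' T := hgood₂.mono hS₂T
  obtain ⟨hsummable, C, hC⟩ := hQ π.a π'.a T (fun v hv =>
    ⟨hQ₁ v (fun h => hv (hS₁T h)), (hg v hv).2.2, (hg' v hv).2.2⟩)
  obtain ⟨G, hG, hten⟩ := hSm hcplx π π' hπ hπ' hne T (hTS₁.trans hS₁T) hg hg'
  obtain ⟨m, hm, hlim⟩ := hA _ G 0 hG (coef2_bot _ _ _) hsummable hten
  rw [zero_div] at hlim
  set ε : ℝ := Real.exp (-(M + C + (T.card : ℝ) * 4)) with hε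
  have hεpos : 0 < ε := Real.exp_pos _
  have hev : ∀ᶠ s in 𝓝[>] (1 : ℝ),
      ‖((s - 1 : ℝ) : ℂ) * dSer (coef2 π.a π'.a (T : Set (HeightOneSpectrum (𝓞 K)))) s‖ < ε := by
    have := hlim.norm
    rw [norm_zero] at this
    exact this.eventually (gt_mem_nhds hεpos)
  obtain ⟨δ, hδ, hδ'⟩ := exists_delta_of_eventually hev
  refine ⟨min δ 1, lt_min hδ one_pos, fun s hs1 hs2 => ?_⟩
  have hs3 : s < 1 + δ := lt_of_lt_of_le hs2 (by linarith [min_le_left δ 1])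
  have hs4 : s < 2 := lt_of_lt_of_le hs2 (by linarith [min_le_right δ 1])
  have hs0 : 0 < s - 1 := by linarith
  have h1 := hδ' s hs1 hs3
  obtain ⟨hne0, habs⟩ := hC s hs1 hs4
  rw [norm_mul, Complex.norm_real, Real.norm_eq_abs, abs_of_pos hs0] at h1
  have hDpos : 0 < ‖dSer (coef2 π.a π'.a (T : Set (HeightOneSpectrum (𝓞 K)))) s‖ :=
    norm_pos_iff.mpr hne0
  have h2 : ‖dSer (coef2 π.a π'.a (T : Set (HeightOneSpectrum (𝓞 K)))) s‖
      < ε * (1 / (s - 1)) := by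
    rw [mul_one_div, lt_div_iff₀ hs0]
    linarith
  have h3 : Real.log ‖dSer (coef2 π.a π'.a (T : Set (HeightOneSpectrum (𝓞 K)))) s‖
      < Real.log (ε * (1 / (s - 1))) := Real.log_lt_log hDpos h2
  rw [Real.log_mul hεpos.ne' (by positivity), hε, Real.log_exp] at h3
  have h4 := (abs_le.mp habs).1
  -- from `S` to `T`
  have hsumS := summable_indicator_of_bound hP (S : Set (HeightOneSpectrum (𝓞 K)))
    (fun v => (π.a v * conj (π'.a v)).re) 4 (fun v hv => by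
      have h := hSb v (by simpa using hv)
      exact abs_re_mul_conj_le h.1 h.2) hs1
  have hsumT := summable_indicator_of_bound hP (T : Set (HeightOneSpectrum (𝓞 K)))
    (fun v => (π.a v * conj (π'.a v)).re) 4 (fun v hv => by
      have hv' : v ∉ T := by simpa using hv
      exact abs_re_mul_conj_le (hg v hv').2.2 (hg' v hv').2.2) hs1
  have h5 := wSum_le_add S T hST (fun v => (π.a v * conj (π'.a v)).re) 4 (by norm_num)
    (fun v hv => (le_abs_self _).trans (abs_re_mul_conj_le (hSb v hv).1 (hSb v hv).2))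
    (by linarith : (0 : ℝ) ≤ s) hsumS hsumT
  linarith

/-- **`T7.RigidC K` from the leaves of levels 2, 3 and 4.** -/
theorem rigidC_of_strip
    (hFr : ∃ (μ : Measure (G K)) (F : Set (G K)), Fermat.Agent.LT.T5.IsFrame μ F)
    (hψ : ∃ ψ : AddChar (Adl K) Circle, Fermat.Agent.LT.T3.IsStdChar K ψ ∧
      Fermat.Agent.LT.T3.IsNonDeg K ψ ∧ Fermat.Agent.LT.T3.IsUnramAE K ψ)
    (hν : letI : MeasurableSpace (Adl K) := borel (Adl K)
      ∃ (ν : Measure (Adl K)) (D : Set (Adl K)), ν.IsAddHaarMeasure ∧ MeasurableSet D ∧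
        IsAddFundamentalDomain ((algebraMap K (Adl K)).toAddMonoidHom.range) D ν ∧ ν D < ⊤)
    (hτ : letI : MeasurableSpace (Adl K)ˣ := borel (Adl K)ˣ
      ∃ τ : Measure (Adl K)ˣ, τ.IsHaarMeasure)
    (hP : PlaceSumC K) (hE : EulerLogC K) (hA : AbelC K)
    (hCount : CountC K) (hOrth : OrthC K) (hNorm : NormPosC K)
    (hFW : FoldWhitC K) (hWF : WhitFormC K) (hIS : IdeleSumC K) (hW : WeightC K) :
    RigidC K := by
  obtain ⟨T₀, hStrip⟩ := stripOnC_of hψ hν hτ hFW hWF hIS hW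
  exact rigidC_of hP
    (rsLowerC_of_on hP hE hA (smoothSelfOnC_of hFr hStrip hCount hNorm))
    (rsCrossC_of_on hP hE hA (smoothCrossOnC_of hFr hStrip hCount hOrth))

end Fermat.Agent.LT.T7.Rigid

end
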