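import Mathlib
import Fermat.Agent.LT.T7.H62.RigidStrip

/-!
# Row LT, tower T7, NODE T7.14 `RigidC` -- SUB-SPEC, LEVEL 5 = cut of `WhitFormC`
(sub-architect helper62)

OFF-MAIN.  ADDITIVE (new names only; nothing of levels 1-4 is changed).  Definitions, frozen
Props, PROVED assembly.  No `sorry`, nothing assumed.

```
WhitForm2C K  ⇐  TorusC K + LocC K + MixC K                        (`whitForm2C_of`, PROVED here)
WhitForm2C K  ⇐  WhitFormC K                                       (`whitForm2C_of_whitFormC`)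
∃ T₀, StripOnC K T₀ ⇐ FoldWhitC + WhitForm2C + IdeleSumC + WeightC (`stripOnC_of2`, PROVED here)
T7.RigidC K   ⇐  ... (as `rigidC_of_strip`, with `WhitForm2C`)     (`rigidC_of_strip2`)
TorusC K      ⇐  HeckeRecC K + ArchUniqC K + WhitInheritC K + MixC K   (LEAF `TorusAsmC`)
```

## Why `WhitForm2C`

`WhitFormC` (level 4) uses ONE ideal `𝔪` for the level of `φ₁` and for the width of the cell.
This is true (local newform theory) but the elementary localisation (finite `ψ`-twisted average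
of right translates by `n(x)`, `x ∈ K_S`) produces a form of level `𝔪` whose Whittaker function
lives on a cell of width `𝔠` with `𝔪 ⊆ 𝔠`, `𝔪 ≠ 𝔠` in general.  `WhitForm2C` has two ideals; the
leaves `FoldWhitC` (used at `𝔪`) and `IdeleSumC` (used at `𝔠`) are UNCHANGED.

## The Props

* `MixC`         (Mathlib only, restricted product): for ideles `y, y'` and a finite set `S`
  there is an idele with the components of `y` at `S` and those of `y'` elsewhere.
* `TorusC`       (NODE): for every `S`-form `φ` the Whittaker function on the torus is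
  `W(a(y)) = f(y) · kirOut(y)`, `f` depending only on the components of `y` at `S`,
  `kirOut = archProfile · ∏_{v ∉ S} locFactor`.
* `LocC`         (NODE, localisation): there are `S`-forms `φ₁, φ₁'`, of level `𝔪`, whose
  Whittaker functions on the torus do not vanish identically, vanish outside the cell
  `y₀ (1 + 𝔠 𝒪_S)` and are constant on the cell for fixed components outside `S`.
* `HeckeRecC`    (LEAF, one finite place `v ∉ S`): `W(a(y)) = 0` if `ord_v y < 0`, and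
  `q W(a(y ϖ)) + W(a(y ϖ⁻¹)) = √q a_v W(a(y))` if `ord_v y ≥ 0`.
* `ArchUniqC`    (LEAF, archimedean uniqueness; row 1719): a bounded continuous function on
  `GL₂(𝔸)` which is `(N, ψ)`-equivariant on the left, right invariant under the positive scalars
  and the unitary groups at the infinite places and has the mean-value property of parameter `0`
  at every complex place satisfies `f(a(y)) · P(y') = f(a(y')) · P(y)` for ideles `y, y'` with the
  same finite components, `P = archProfile c`, `c_w = 2π |λ_w|` if `ψ_w(x) = e(Re(λ_w x))`.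
* `WhitInheritC` (LEAF): the Whittaker function of an `S`-form is such a function.
* `TorusAsmC`    (LEAF, bookkeeping on ideles): the implication
  `HeckeRecC + ArchUniqC + WhitInheritC + MixC ⇒ TorusC`.
-/

set_option autoImplicit false

open AutomorphicForm IsDedekindDomain NumberField Filter Topology MeasureTheory
open scoped ComplexConjugate

noncomputable section

namespace Fermat.Agent.LT.T7.Rigid

open Fermat.Agent.LT.H556 Fermat.Agent.LT.H556.A0 Fermat.Agent.LT.T7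

attribute [local instance] Fermat.Agent.LT.T5.instMeasurableSpaceG

variable {K : Type} [Field K] [NumberField K]

/-! ## Vocabulary -/

open Classical in
/-- The part of `kir` outside `S`: `archProfile c y · ∏_{v ∉ S} q_v^{-m_v/2} s_{m_v}(a_v)`. -/
def kirOut (a : HeightOneSpectrum (𝓞 K) → ℂ) (S : Finset (HeightOneSpectrum (𝓞 K)))
    (c : InfinitePlace K → ℝ) (y : (Adl K)ˣ) : ℂ :=
  ((archProfile c y : ℝ) : ℂ)
    * ∏ᶠ v : HeightOneSpectrum (𝓞 K), (if v ∈ S then 1 else locFactor v (a v) (ordI v y))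

/-- `y` and `y'` have the same components at the places of `S`. -/
def SameAt (S : Finset (HeightOneSpectrum (𝓞 K))) (y y' : (Adl K)ˣ) : Prop :=
  ∀ v ∈ S, (y : Adl K).2 v = (y' : Adl K).2 v

/-- `y` and `y'` have the same components at the finite places outside `S` and at the infinite
places. -/
def SameOff (S : Finset (HeightOneSpectrum (𝓞 K))) (y y' : (Adl K)ˣ) : Prop :=
  (∀ v : HeightOneSpectrum (𝓞 K), v ∉ S → (y : Adl K).2 v = (y' : Adl K).2 v) ∧
    ∀ w : InfinitePlace K, (y : Adl K).1 w = (y' : Adl K).1 w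

/-- `t` is a uniformiser at `v`, and `1` at every other place. -/
def IsUnifIdele (v : HeightOneSpectrum (𝓞 K)) (t : (Adl K)ˣ) : Prop :=
  (∀ w : InfinitePlace K, (t : Adl K).1 w = 1) ∧
    (∀ v' : HeightOneSpectrum (𝓞 K), v' ≠ v → (t : Adl K).2 v' = 1) ∧
    Valued.v ((t : Adl K).2 v) = WithZero.exp (-1 : ℤ)

/-- The properties of a Whittaker function used at the infinite places. -/
structure IsArchWhit (ψ : AddChar (Adl K) Circle) (f : G K → ℂ) : Prop where
  cont : Continuous f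
  bdd : ∃ C : ℝ, ∀ g : G K, ‖f g‖ ≤ C
  equiv : ∀ (x : Adl K) (g : G K),
    f (Fermat.Agent.LT.T3.unip K x * g) = ((ψ x : Circle) : ℂ) * f g
  arch_scalar : ∀ (w : InfinitePlace K) (z : G K), IsArchPosScalar w z →
    ∀ g : G K, f (g * z) = f g
  arch_compact : ∀ (w : InfinitePlace K) (k : G K), IsArchCompact w k →
    ∀ g : G K, f (g * k) = f g
  mean_complex : ∀ w : InfinitePlace K, w.IsComplex → MeanValueComplex f w

/-! ## The Props of level 5 -/

variable (K)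

/-- **LEAF MIX** (Mathlib only; restricted product).  For ideles `y, y'` and a finite set `S` of
finite places there is an idele with the components of `y` at `S` and the components of `y'`
at all other places. -/
def MixC : Prop :=
  ∀ (S : Finset (HeightOneSpectrum (𝓞 K))) (y y' : (Adl K)ˣ),
    ∃ z : (Adl K)ˣ, SameAt S z y ∧ SameOff S z y'

/-- **NODE WHIT-FORM, two ideals.**  As `WhitFormC`, with an ideal `𝔪` for the level of `φ₁, φ₁'`
and an ideal `𝔠` for the width of the cell. -/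
def WhitForm2C : Prop :=
  letI : MeasurableSpace (Adl K) := borel (Adl K)
  TotCplx K →
  ∀ ψ : AddChar (Adl K) Circle, Fermat.Agent.LT.T3.IsStdChar K ψ →
    Fermat.Agent.LT.T3.IsNonDeg K ψ →
  ∀ (ν : Measure (Adl K)) (D : Set (Adl K)), ν.IsAddHaarMeasure → MeasurableSet D →
    IsAddFundamentalDomain ((algebraMap K (Adl K)).toAddMonoidHom.range) D ν → ν D < ⊤ →
  ∀ (π π' : HeckeEigensystem K ℂ) (φ φ' : G K → ℂ),
    IsSph0CuspFormFor π φ → IsSph0CuspFormFor π' φ' →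
    ∀ S : Finset (HeightOneSpectrum (𝓞 K)), IsUnramOutside ψ S →
      IsGoodOutside π S → IsGoodOutside π' S →
      ∃ (φ₁ φ₁' : G K → ℂ) (𝔪 𝔠 : Ideal (𝓞 K)) (y₀ : (Adl K)ˣ) (c : InfinitePlace K → ℝ)
        (w₀ w₀' : ℂ),
        IsSForm π S φ₁ ∧ IsSForm π' S φ₁' ∧ (∃ g : G K, φ₁ g ≠ 0) ∧ (φ = φ' → φ₁ = φ₁') ∧
        IsSupp S 𝔪 ∧ IsSupp S 𝔠 ∧ IsLevelInv 𝔪 φ₁ ∧ IsLevelInv 𝔪 φ₁' ∧ (∀ w, 0 < c w) ∧
        w₀ ≠ 0 ∧ w₀' ≠ 0 ∧
        ∀ y : (Adl K)ˣ,
          whit ψ ν D φ₁ (dgA y) = w₀ * kir π.a S 𝔠 y₀ c y ∧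
          whit ψ ν D φ₁' (dgA y) = w₀' * kir π'.a S 𝔠 y₀ c y

/-- **NODE TORUS** (Hecke recursion at the places outside `S` + archimedean uniqueness).  There
are constants `c_w > 0` (depending on `ψ` only) such that for every `S`-form `φ` of `π`, `ψ`
unramified outside `S`: `W_φ(a(y)) = f(y) · kirOut π.a S c y` for all ideles `y`, where `f(y)`
depends only on the components of `y` at the places of `S`. -/
def TorusC : Prop :=
  letI : MeasurableSpace (Adl K) := borel (Adl K)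
  TotCplx K →
  ∀ ψ : AddChar (Adl K) Circle, Fermat.Agent.LT.T3.IsStdChar K ψ →
    Fermat.Agent.LT.T3.IsNonDeg K ψ →
  ∀ (ν : Measure (Adl K)) (D : Set (Adl K)), ν.IsAddHaarMeasure → MeasurableSet D →
    IsAddFundamentalDomain ((algebraMap K (Adl K)).toAddMonoidHom.range) D ν → ν D < ⊤ →
    ∃ c : InfinitePlace K → ℝ, (∀ w, 0 < c w) ∧
      ∀ (π : HeckeEigensystem K ℂ) (S : Finset (HeightOneSpectrum (𝓞 K))) (φ : G K → ℂ),
        IsUnramOutside ψ S → IsSForm π S φ →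
        ∃ f : (Adl K)ˣ → ℂ, (∀ y y' : (Adl K)ˣ, SameAt S y y' → f y = f y') ∧
          ∀ y : (Adl K)ˣ, whit ψ ν D φ (dgA y) = f y * kirOut π.a S c y

/-- **NODE LOC** (localisation at `S`).  For forms `φ, φ'` as in A0 and a finite set `S`
containing the bad places of both and the places where `ψ` is ramified there are `S`-forms `φ₁`
of `π` and `φ₁'` of `π'` (equal if `φ = φ'`), right invariant under `U(𝔪)`, whose Whittaker
functions on the torus (i) do not vanish identically, (ii) vanish outside the cell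
`{y : y_v ∈ y₀_v (1 + 𝔠 𝒪_v), v ∈ S}`, (iii) take the same value at two ideles of the cell with
the same components outside `S`.

Construction: `W_φ(g₀) ≠ 0` for some `g₀` (Parseval on `K \ 𝔸_K`, cuspidality, continuity);
`g₀ = n(x) a(y₁) z k` (Iwasawa), `φ` is invariant under the centre, under `k_∞` and under `k_v`,
`v ∉ S`; `φ₂ = R(k_S) φ`; `φ₁ = ∑_{x ∈ X} ψ̄(y₁ x) R(n(x)) φ₂`, `X = ∏_{v ∈ S} 𝔭_v^{-N_v} / 𝔪`;
then `W₁(a(y)) = W₂(a(y)) ∑_x ψ((y - y₁) x) = |X| · 1[y ∈ cell] · W₂(a(y))`.  For `φ'`: the same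
after a right translation by `a(t)`, `t ∈ K_S^×`, which moves the `S`-components of `y₁'` to
those of `y₁`. -/
def LocC : Prop :=
  letI : MeasurableSpace (Adl K) := borel (Adl K)
  TotCplx K →
  ∀ ψ : AddChar (Adl K) Circle, Fermat.Agent.LT.T3.IsStdChar K ψ →
    Fermat.Agent.LT.T3.IsNonDeg K ψ →
  ∀ (ν : Measure (Adl K)) (D : Set (Adl K)), ν.IsAddHaarMeasure → MeasurableSet D →
    IsAddFundamentalDomain ((algebraMap K (Adl K)).toAddMonoidHom.range) D ν → ν D < ⊤ →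
  ∀ (π π' : HeckeEigensystem K ℂ) (φ φ' : G K → ℂ),
    IsSph0CuspFormFor π φ → IsSph0CuspFormFor π' φ' →
    ∀ S : Finset (HeightOneSpectrum (𝓞 K)), IsUnramOutside ψ S →
      IsGoodOutside π S → IsGoodOutside π' S →
      ∃ (φ₁ φ₁' : G K → ℂ) (𝔪 𝔠 : Ideal (𝓞 K)) (y₀ : (Adl K)ˣ),
        IsSForm π S φ₁ ∧ IsSForm π' S φ₁' ∧ (φ = φ' → φ₁ = φ₁') ∧
        IsSupp S 𝔪 ∧ IsSupp S 𝔠 ∧ IsLevelInv 𝔪 φ₁ ∧ IsLevelInv 𝔪 φ₁' ∧
        (∃ y : (Adl K)ˣ, whit ψ ν D φ₁ (dgA y) ≠ 0) ∧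
        (∃ y : (Adl K)ˣ, whit ψ ν D φ₁' (dgA y) ≠ 0) ∧
        (∀ y : (Adl K)ˣ, whit ψ ν D φ₁ (dgA y) ≠ 0 → InCell S 𝔠 y₀ y) ∧
        (∀ y : (Adl K)ˣ, whit ψ ν D φ₁' (dgA y) ≠ 0 → InCell S 𝔠 y₀ y) ∧
        (∀ y y' : (Adl K)ˣ, InCell S 𝔠 y₀ y → InCell S 𝔠 y₀ y' → SameOff S y y' →
          whit ψ ν D φ₁ (dgA y) = whit ψ ν D φ₁ (dgA y')) ∧
        (∀ y y' : (Adl K)ˣ, InCell S 𝔠 y₀ y → InCell S 𝔠 y₀ y' → SameOff S y y' →
          whit ψ ν D φ₁' (dgA y) = whit ψ ν D φ₁' (dgA y'))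

/-- **LEAF HECKE-REC** (one finite place `v ∉ S`).  For an `S`-form `φ` of `π`, `ψ` unramified
outside `S`, a place `v ∉ S`, an idele `y` and a uniformiser `t` at `v`:
`W(a(y)) = 0` if `ord_v y < 0`, and `q_v W(a(y t)) + W(a(y t⁻¹)) = √q_v a_v W(a(y))` if
`ord_v y ≥ 0`.

Proof: `W(a(y) n(x)) = ψ(y x) W(a(y))` and `n(x) ∈ GL₂(𝒪_v)` for `x ∈ 𝒪_v` give the vanishing
(`ψ_v` is non-trivial on `ϖ_v⁻¹ 𝒪_v`); the Hecke relation for the coset system
`{n(r) a(t) : r ∈ 𝒪_v / ϖ_v} ∪ {z(t) a(t⁻¹)}` (`z(t)` the scalar, eigenvalue `1`) gives the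
recursion (`a(y) n(r) a(t) = n(y r) a(y t)`, `ψ(y r) = 1`). -/
def HeckeRecC : Prop :=
  letI : MeasurableSpace (Adl K) := borel (Adl K)
  TotCplx K →
  ∀ ψ : AddChar (Adl K) Circle, Fermat.Agent.LT.T3.IsStdChar K ψ →
    Fermat.Agent.LT.T3.IsNonDeg K ψ →
  ∀ (ν : Measure (Adl K)) (D : Set (Adl K)), ν.IsAddHaarMeasure → MeasurableSet D →
    IsAddFundamentalDomain ((algebraMap K (Adl K)).toAddMonoidHom.range) D ν → ν D < ⊤ →
  ∀ (π : HeckeEigensystem K ℂ) (S : Finset (HeightOneSpectrum (𝓞 K))) (φ : G K → ℂ),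
    IsUnramOutside ψ S → IsSForm π S φ →
    ∀ v : HeightOneSpectrum (𝓞 K), v ∉ S → ∀ y t : (Adl K)ˣ, IsUnifIdele v t →
      (ordI v y < 0 → whit ψ ν D φ (dgA y) = 0) ∧
      (0 ≤ ordI v y →
        ((nv v : ℝ) : ℂ) * whit ψ ν D φ (dgA (y * t)) + whit ψ ν D φ (dgA (y * t⁻¹))
          = ((Real.sqrt (nv v) : ℝ) : ℂ) * π.a v * whit ψ ν D φ (dgA y))

/-- **LEAF ARCH-U** (archimedean uniqueness of the bounded Whittaker function of parameter `0`;
row 1719).  There are constants `c_w > 0` (`c_w = 2π |λ_w|` if the component of `ψ` at `w` is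
`x ↦ e(Re(λ_w x))`) such that every function `f` with the properties `IsArchWhit ψ f` satisfies
`f(a(y)) · archProfile c y' = f(a(y')) · archProfile c y` for all ideles `y, y'` with the same
finite components.

Proof at one complex place (the other components are parameters): `F(x, r) = f(n(x) a(r) g)` is
a bounded continuous function on `ℍ³` with the mean-value property of parameter `0`, hence real
analytic with `ΔF + F = 0`; `F = ψ_w(x) W(r)`, so `r² W'' - r W' + (1 - c² r²) W = 0`,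
`W = r (A K₀(c r) + B I₀(c r))`, and `B = 0` as `W` is bounded. -/
def ArchUniqC : Prop :=
  TotCplx K →
  ∀ ψ : AddChar (Adl K) Circle, Fermat.Agent.LT.T3.IsStdChar K ψ →
    Fermat.Agent.LT.T3.IsNonDeg K ψ →
    ∃ c : InfinitePlace K → ℝ, (∀ w, 0 < c w) ∧
      ∀ f : G K → ℂ, IsArchWhit ψ f →
        ∀ y y' : (Adl K)ˣ,
          (∀ v : HeightOneSpectrum (𝓞 K), (y : Adl K).2 v = (y' : Adl K).2 v) →
          f (dgA y) * ((archProfile c y' : ℝ) : ℂ) = f (dgA y') * ((archProfile c y : ℝ) : ℂ)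

/-- **LEAF WHIT-INHERIT.**  The Whittaker function of an `S`-form is continuous, bounded,
`(N, ψ)`-equivariant on the left (change of variables on the fundamental domain; `φ` is left
invariant under `n(ξ)`, `ξ ∈ K`, and `ψ` is trivial on `K`), right invariant under the positive
scalars and the unitary groups at the infinite places, and has the mean-value property of
parameter `0` at the complex places (Fubini). -/
def WhitInheritC : Prop :=
  letI : MeasurableSpace (Adl K) := borel (Adl K)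
  ∀ ψ : AddChar (Adl K) Circle, Fermat.Agent.LT.T3.IsStdChar K ψ →
  ∀ (ν : Measure (Adl K)) (D : Set (Adl K)), ν.IsAddHaarMeasure → MeasurableSet D →
    IsAddFundamentalDomain ((algebraMap K (Adl K)).toAddMonoidHom.range) D ν → ν D < ⊤ →
  ∀ (π : HeckeEigensystem K ℂ) (S : Finset (HeightOneSpectrum (𝓞 K))) (φ : G K → ℂ),
    IsSForm π S φ → IsArchWhit ψ (whit ψ ν D φ)

/-- **LEAF TORUS-ASM** (bookkeeping on ideles): the node `TorusC` from the Hecke recursion, the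
archimedean uniqueness, the properties of the Whittaker function and `MixC`.

Proof: `f(y) = W(a(y^S)) / archProfile c 1`, `y^S` the idele with the components of `y` at `S`
and `1` elsewhere; `W(a(y u)) = W(a(y))` for `u ∈ ∏_{v ∉ S} 𝒪_v^×` (level invariance of `φ`);
induction on the finite set of the places `v ∉ S` with `ord_v y ≠ 0`, at each place induction on
`ord_v y` by the recursion. -/
def TorusAsmC : Prop :=
  HeckeRecC K → ArchUniqC K → WhitInheritC K → MixC K → TorusC K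

/-! ## The assembly -/

variable {K}

open Classical in
theorem kir_eq_kirOut (a : HeightOneSpectrum (𝓞 K) → ℂ) (S : Finset (HeightOneSpectrum (𝓞 K)))
    (𝔠 : Ideal (𝓞 K)) (y₀ : (Adl K)ˣ) (c : InfinitePlace K → ℝ) (y : (Adl K)ˣ) :
    kir a S 𝔠 y₀ c y = (if InCell S 𝔠 y₀ y then 1 else 0) * kirOut a S c y := by
  unfold kir kirOut
  ring

open Classical in
theorem kirOut_congr (a : HeightOneSpectrum (𝓞 K) → ℂ) (S : Finset (HeightOneSpectrum (𝓞 K)))
    (c : InfinitePlace K → ℝ) {y y' : (Adl K)ˣ} (h : SameOff S y y') :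
    kirOut a S c y = kirOut a S c y' := by
  unfold kirOut
  have h1 : archProfile c y = archProfile c y' := by
    unfold archProfile
    refine Finset.prod_congr rfl fun w _ => ?_
    rw [h.2 w]
  have h2 : ∀ v : HeightOneSpectrum (𝓞 K),
      (if v ∈ S then (1 : ℂ) else locFactor v (a v) (ordI v y))
        = if v ∈ S then (1 : ℂ) else locFactor v (a v) (ordI v y') := by
    intro v
    by_cases hv : v ∈ S
    · simp [hv]
    · simp only [hv, if_false]
      unfold ordI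
      rw [h.1 v hv]
  rw [h1, finprod_congr h2]

theorem inCell_congr {S : Finset (HeightOneSpectrum (𝓞 K))} {𝔠 : Ideal (𝓞 K)}
    {y₀ y y' : (Adl K)ˣ} (h : SameAt S y' y) (hy : InCell S 𝔠 y₀ y) : InCell S 𝔠 y₀ y' := by
  intro v hv
  obtain ⟨u, hu, hyu⟩ := hy v hv
  exact ⟨u, hu, by rw [h v hv, hyu]⟩

/-- The formula on the torus for one form. -/
theorem whit_eq_kir_of (hM : MixC K) {a : HeightOneSpectrum (𝓞 K) → ℂ}
    {S : Finset (HeightOneSpectrum (𝓞 K))} {𝔠 : Ideal (𝓞 K)} {y₀ : (Adl K)ˣ}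
    {c : InfinitePlace K → ℝ} {W f : (Adl K)ˣ → ℂ}
    (hf : ∀ y y' : (Adl K)ˣ, SameAt S y y' → f y = f y')
    (hW : ∀ y : (Adl K)ˣ, W y = f y * kirOut a S c y)
    (hsupp : ∀ y : (Adl K)ˣ, W y ≠ 0 → InCell S 𝔠 y₀ y)
    (hconst : ∀ y y' : (Adl K)ˣ, InCell S 𝔠 y₀ y → InCell S 𝔠 y₀ y' → SameOff S y y' →
      W y = W y')
    {ys : (Adl K)ˣ} (hne : W ys ≠ 0) :
    f ys ≠ 0 ∧ ∀ y : (Adl K)ˣ, W y = f ys * kir a S 𝔠 y₀ c y := by
  have hfk : f ys ≠ 0 ∧ kirOut a S c ys ≠ 0 := by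
    rw [hW ys] at hne
    exact ⟨left_ne_zero_of_mul hne, right_ne_zero_of_mul hne⟩
  refine ⟨hfk.1, fun y => ?_⟩
  rw [kir_eq_kirOut]
  by_cases hy : InCell S 𝔠 y₀ y
  · rw [if_pos hy, one_mul, hW y]
    by_cases hk : kirOut a S c y = 0
    · rw [hk, mul_zero, mul_zero]
    · obtain ⟨z, hz1, hz2⟩ := hM S y ys
      have hzc : InCell S 𝔠 y₀ z := inCell_congr hz1 hy
      have hWz : W z = W ys := hconst z ys hzc (hsupp ys hne) hz2
      have hkz : kirOut a S c z = kirOut a S c ys := kirOut_congr a S c hz2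
      rw [hW z, hW ys, hkz] at hWz
      have hfz : f z = f ys := mul_right_cancel₀ hfk.2 hWz
      rw [← hfz, hf z y hz1]
  · rw [if_neg hy, zero_mul, mul_zero]
    by_contra hne'
    exact hy (hsupp y hne')

/-- **Assembly of level 5**: `WhitForm2C` from `TorusC`, `LocC` and `MixC`. -/
theorem whitForm2C_of (hT : TorusC K) (hL : LocC K) (hM : MixC K) : WhitForm2C K := by
  intro hcplx ψ hstd hnd ν D hνH hDm hDf hDfin π π' φ φ' hφ hφ' S hun hg hg'
  obtain ⟨c, hc, hT'⟩ := hT hcplx ψ hstd hnd ν D hνH hDm hDf hDfin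
  obtain ⟨φ₁, φ₁', 𝔪, 𝔠, y₀, h1, h1', heq, hs𝔪, hs𝔠, hl, hl', ⟨ys, hys⟩, ⟨ys', hys'⟩,
    hsupp, hsupp', hconst, hconst'⟩ :=
    hL hcplx ψ hstd hnd ν D hνH hDm hDf hDfin π π' φ φ' hφ hφ' S hun hg hg'
  obtain ⟨f, hf, hW⟩ := hT' π S φ₁ hun h1
  obtain ⟨f', hf', hW'⟩ := hT' π' S φ₁' hun h1'
  obtain ⟨hw₀, hform⟩ := whit_eq_kir_of hM (W := fun y => whit ψ ν D φ₁ (dgA y)) hf hW hsupp
    hconst hys
  obtain ⟨hw₀', hform'⟩ := whit_eq_kir_of hM (W := fun y => whit ψ ν D φ₁' (dgA y)) hf' hW'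
    hsupp' hconst' hys'
  refine ⟨φ₁, φ₁', 𝔪, 𝔠, y₀, c, f ys, f' ys', h1, h1', ?_, heq, hs𝔪, hs𝔠, hl, hl', hc, hw₀,
    hw₀', fun y => ⟨hform y, hform' y⟩⟩
  by_contra hzero
  push Not at hzero
  apply hys
  unfold whit
  simp [hzero]

/-- `WhitFormC` is the special case `𝔠 = 𝔪`. -/
theorem whitForm2C_of_whitFormC (h : WhitFormC K) : WhitForm2C K := by
  intro hcplx ψ hstd hnd ν D hνH hDm hDf hDfin π π' φ φ' hφ hφ' S hun hg hg'
  obtain ⟨φ₁, φ₁', 𝔪, y₀, c, w₀, w₀', h1, h1', hne, heq, hsupp, hl, hl', hc, hw₀, hw₀', hform⟩ :=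
    h hcplx ψ hstd hnd ν D hνH hDm hDf hDfin π π' φ φ' hφ hφ' S hun hg hg'
  exact ⟨φ₁, φ₁', 𝔪, 𝔪, y₀, c, w₀, w₀', h1, h1', hne, heq, hsupp, hsupp, hl, hl', hc, hw₀,
    hw₀', hform⟩

/-- **Assembly of level 4, two ideals**: `StripOnC` from `FoldWhitC`, `WhitForm2C`, `IdeleSumC`,
`WeightC` and the existence of the additive data. -/
theorem stripOnC_of2
    (hψ : ∃ ψ : AddChar (Adl K) Circle, Fermat.Agent.LT.T3.IsStdChar K ψ ∧
      Fermat.Agent.LT.T3.IsNonDeg K ψ ∧ Fermat.Agent.LT.T3.IsUnramAE K ψ)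
    (hν : letI : MeasurableSpace (Adl K) := borel (Adl K)
      ∃ (ν : Measure (Adl K)) (D : Set (Adl K)), ν.IsAddHaarMeasure ∧ MeasurableSet D ∧
        IsAddFundamentalDomain ((algebraMap K (Adl K)).toAddMonoidHom.range) D ν ∧ ν D < ⊤)
    (hτ : letI : MeasurableSpace (Adl K)ˣ := borel (Adl K)ˣ
      ∃ τ : Measure (Adl K)ˣ, τ.IsHaarMeasure)
    (hFW : FoldWhitC K) (hWF : WhitForm2C K) (hIS : IdeleSumC K) (hW : WeightC K) :
    ∃ T₀ : Finset (HeightOneSpectrum (𝓞 K)), StripOnC K T₀ := by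
  obtain ⟨ψ, hstd, hnd, T₀, hT₀⟩ := hψ
  refine ⟨T₀, ?_⟩
  intro hcplx μ F hF π π' φ φ' hφ hφ' S hTS hg hg'
  let _ : MeasurableSpace (Adl K) := borel (Adl K)
  let _ : MeasurableSpace (Adl K)ˣ := borel (Adl K)ˣ
  obtain ⟨ν, D, hνH, hDm, hDf, hDfin⟩ := hν
  obtain ⟨τ, hτH⟩ := hτ
  have hun : IsUnramOutside ψ S := IsUnramOutside.mono hT₀ hTS
  obtain ⟨φ₁, φ₁', 𝔪, 𝔠, y₀, c, w₀, w₀', h1, h1', hne, heq, hsupp, hsuppc, hl, hl', hc, hw₀,
    hw₀', hform⟩ :=
    hWF hcplx ψ hstd hnd ν D hνH hDm hDf hDfin π π' φ φ' hφ hφ' S hun hg hg'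
  obtain ⟨c₁, hc₁, hfold⟩ := hFW hcplx μ F hF ψ hstd hnd ν D hνH hDm hDf hDfin τ hτH S 𝔪 hsupp
  obtain ⟨c₂, t₀, hc₂, ht₀, hsum⟩ := hIS hcplx τ hτH S 𝔠 y₀ c hsuppc hc
  refine ⟨φ₁, φ₁', 𝔪, fun T => archG c (T / t₀), (c₁ : ℂ) * (w₀ * conj w₀') * (c₂ : ℂ),
    h1, h1', hne, heq, hsupp.1, hW hcplx c t₀ hc ht₀, ?_, ?_⟩
  · refine mul_ne_zero (mul_ne_zero (by exact_mod_cast hc₁.ne') (mul_ne_zero hw₀ ?_))
      (by exact_mod_cast hc₂.ne')
    simpa using hw₀'
  · intro Y hY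
    rw [hfold π π' φ₁ φ₁' h1 h1' hl hl' Y hY]
    have hint : ∫ y in {y : (Adl K)ˣ | Y ≤ Fermat.Agent.LT.T5.adNorm (y : Adl K)},
          whit ψ ν D φ₁ (dgA y) * conj (whit ψ ν D φ₁' (dgA y))
            * (((Fermat.Agent.LT.T5.adNorm (y : Adl K))⁻¹ : ℝ) : ℂ) ∂τ
        = (w₀ * conj w₀') * ∫ y in {y : (Adl K)ˣ | Y ≤ Fermat.Agent.LT.T5.adNorm (y : Adl K)},
            kir π.a S 𝔠 y₀ c y * conj (kir π'.a S 𝔠 y₀ c y)
              * (((Fermat.Agent.LT.T5.adNorm (y : Adl K))⁻¹ : ℝ) : ℂ) ∂τ := by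
      rw [← MeasureTheory.integral_const_mul]
      refine MeasureTheory.integral_congr_ae (Filter.Eventually.of_forall fun y => ?_)
      simp only
      rw [(hform y).1, (hform y).2, map_mul]
      ring
    rw [hint, hsum π.a π'.a (fun v hv => ⟨(hg v (fun h => hv h)).2.2, (hg' v hv).2.2⟩) Y hY]
    ring

/-- **`T7.RigidC K` from the leaves of levels 2, 3, 4 (two ideals).** -/
theorem rigidC_of_strip2
    (hFr : ∃ (μ : Measure (G K)) (F : Set (G K)), Fermat.Agent.LT.T5.IsFrame μ F)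
    (hψ : ∃ ψ : AddChar (Adl K) Circle, Fermat.Agent.LT.T3.IsStdChar K ψ ∧
      Fermat.Agent.LT.T3.IsNonDeg K ψ ∧ Fermat.Agent.LT.T3.IsUnramAE K ψ)
    (hν : letI : MeasurableSpace (Adl K) := borel (Adl K)
      ∃ (ν : Measure (Adl K)) (D : Set (Adl K)), ν.IsAddHaarMeasure ∧ MeasurableSet D ∧
        IsAddFundamentalDomain ((algebraMap K (Adl K)).toAddMonoidHom.range) D ν ∧ ν D < ⊤)
    (hτ : letI : MeasurableSpace (Adl K)ˣ := borel (Adl K)ˣ
      ∃ τ : Measure (Adl K)ˣ, τ.IsHaarMeasure)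
    (hP : PlaceSumC K) (hE : EulerLogC K) (hA : AbelC K)
    (hCount : CountC K) (hOrth : OrthC K) (hNorm : NormPosC K)
    (hFW : FoldWhitC K) (hWF : WhitForm2C K) (hIS : IdeleSumC K) (hW : WeightC K) :
    RigidC K := by
  obtain ⟨T₀, hStrip⟩ := stripOnC_of2 hψ hν hτ hFW hWF hIS hW
  exact rigidC_of hP
    (rsLowerC_of_on hP hE hA (smoothSelfOnC_of hFr hStrip hCount hNorm))
    (rsCrossC_of_on hP hE hA (smoothCrossOnC_of hFr hStrip hCount hOrth))

/-- **`T7.RigidC K` from the leaves of levels 2-5.** -/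
theorem rigidC_of_whit
    (hFr : ∃ (μ : Measure (G K)) (F : Set (G K)), Fermat.Agent.LT.T5.IsFrame μ F)
    (hψ : ∃ ψ : AddChar (Adl K) Circle, Fermat.Agent.LT.T3.IsStdChar K ψ ∧
      Fermat.Agent.LT.T3.IsNonDeg K ψ ∧ Fermat.Agent.LT.T3.IsUnramAE K ψ)
    (hν : letI : MeasurableSpace (Adl K) := borel (Adl K)
      ∃ (ν : Measure (Adl K)) (D : Set (Adl K)), ν.IsAddHaarMeasure ∧ MeasurableSet D ∧
        IsAddFundamentalDomain ((algebraMap K (Adl K)).toAddMonoidHom.range) D ν ∧ ν D < ⊤)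
    (hτ : letI : MeasurableSpace (Adl K)ˣ := borel (Adl K)ˣ
      ∃ τ : Measure (Adl K)ˣ, τ.IsHaarMeasure)
    (hP : PlaceSumC K) (hE : EulerLogC K) (hA : AbelC K)
    (hCount : CountC K) (hOrth : OrthC K) (hNorm : NormPosC K)
    (hFW : FoldWhitC K) (hIS : IdeleSumC K) (hW : WeightC K)
    (hM : MixC K) (hL : LocC K) (hHR : HeckeRecC K) (hAU : ArchUniqC K)
    (hWI : WhitInheritC K) (hTA : TorusAsmC K) :
    RigidC K :=
  rigidC_of_strip2 hFr hψ hν hτ hP hE hA hCount hOrth hNorm hFW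
    (whitForm2C_of (hTA hHR hAU hWI hM) hL hM) hIS hW

end Fermat.Agent.LT.T7.Rigid

end
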