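import Mathlib
import Fermat.Agent.LT.T7.H308.RigidClosed
import Fermat.Agent.LT.T3.H276.GoodChar
import Fermat.Agent.LT.T7.H62.RigidWhit

/-!
# Row LT, tower T7, NODE T7.14 `RigidC` -- PLUG (sub-architect helper62)

OFF-MAIN.  `Open62 K` = the leaves of `T7.RigidC K` which are still OPEN (levels 3-5 of the
sub-spec); `rigidC_of_open62 : Open62 K → T7.RigidC K`, `rigidAll_of_open62`.

CLOSED and discharged here: the frame (tower T1, `T5/H62/FrameExists.lean`), the good additive
character (T3.01, helper276), Haar measure and fundamental domain of `𝔸_K` (tower T1), Haar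
measure of the ideles (tower T1: local compactness), `PlaceSumC` (helper308 / helper954),
`EulerLogC` (helper27), `AbelC` (helper362), `NormPosC` (helper250).

All imported files are byte-identical copies of the owners' files.
-/

set_option autoImplicit false
set_option linter.style.haveILetI false

open IsDedekindDomain NumberField MeasureTheory

namespace Fermat.Agent.LT.T7.Rigid

open Fermat.Agent.LT.H556.A0 Fermat.Agent.LT.T7

variable (K : Type) [Field K] [NumberField K]

/-- The good additive character (T3.01, helper276). -/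
theorem goodChar62 : ∃ ψ : AddChar (Adl K) Circle, Fermat.Agent.LT.T3.IsStdChar K ψ ∧
    Fermat.Agent.LT.T3.IsNonDeg K ψ ∧ Fermat.Agent.LT.T3.IsUnramAE K ψ :=
  Fermat.Agent.LT.T3.H276.goodCharExists276 K

/-- Haar measure and fundamental domain of `𝔸_K` (tower T1). -/
theorem addFund62 : letI : MeasurableSpace (Adl K) := borel (Adl K)
    ∃ (ν : Measure (Adl K)) (D : Set (Adl K)), ν.IsAddHaarMeasure ∧ MeasurableSet D ∧
      IsAddFundamentalDomain ((algebraMap K (Adl K)).toAddMonoidHom.range) D ν ∧ ν D < ⊤ := by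
  letI : MeasurableSpace (Adl K) := borel (Adl K)
  haveI : BorelSpace (Adl K) := ⟨rfl⟩
  have h := Fermat.Agent.LT.T1.t1Out K
  obtain ⟨⟨h1, h2, h3⟩, -⟩ := h.locComp
  haveI := h1
  haveI := h2
  haveI := h3
  obtain ⟨D, hDm, hDf, -, -, hfin⟩ := h.addFundDom Measure.addHaar inferInstance
  exact ⟨Measure.addHaar, D, inferInstance, hDm, hDf, hfin⟩

/-- Haar measure of the ideles (tower T1: `𝔸_K` is locally compact and Hausdorff). -/
theorem ideleHaar62 : letI : MeasurableSpace (Adl K)ˣ := borel (Adl K)ˣ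
    ∃ τ : Measure (Adl K)ˣ, τ.IsHaarMeasure := by
  letI : MeasurableSpace (Adl K)ˣ := borel (Adl K)ˣ
  haveI : BorelSpace (Adl K)ˣ := ⟨rfl⟩
  have h := Fermat.Agent.LT.T1.t1Out K
  obtain ⟨⟨h1, h2, h3⟩, -⟩ := h.locComp
  haveI := h1
  haveI := h2
  haveI := h3
  haveI : LocallyCompactSpace (Adl K)ˣ := Units.isClosedEmbedding_embedProduct.locallyCompactSpace
  exact ⟨Measure.haar, inferInstance⟩

/-- THE OPEN LEAVES of `T7.RigidC K`. -/
structure Open62 : Prop where
  /-- T7.14.3 (row 1519, helper671). -/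
  count : CountC K
  /-- T7.14.4 (row 1520, helper555). -/
  orth : OrthC K
  /-- T7.14.6a (row 1717, helper290). -/
  foldWhit : FoldWhitC K
  /-- T7.14.6c (row 1720, helper568). -/
  ideleSum : IdeleSumC K
  /-- T7.14.6d (row 1721, helper179). -/
  weight : WeightC K
  /-- T7.14.6b.0 (row 1828). -/
  mix : MixC K
  /-- T7.14.6b.1 (row 1829). -/
  loc : LocC K
  /-- T7.14.6b.2 (row 1830). -/
  heckeRec : HeckeRecC K
  /-- T7.14.6b.3 (row 1719, helper724). -/
  archUniq : ArchUniqC K
  /-- T7.14.6b.4 (row 1831). -/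
  whitInherit : WhitInheritC K
  /-- T7.14.6b.5 (row 1832). -/
  torusAsm : TorusAsmC K

/-- **`T7.RigidC K` from the open leaves.** -/
theorem rigidC_of_open62 (h : Open62 K) : RigidC K :=
  rigidC_of_whit (Fermat.Agent.LT.T7.H308.frame_exists308 K) (goodChar62 K) (addFund62 K)
    (ideleHaar62 K) (Fermat.Agent.LT.T7.H308.placeSumC308 K)
    (Fermat.Agent.LT.T7.H27.eulerLogC27 K) (Fermat.Agent.LT.T7.H362.abelC362 K)
    h.count h.orth (Fermat.Agent.LT.T7.H250.normPosC250 K) h.foldWhit h.ideleSum h.weight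
    h.mix h.loc h.heckeRec h.archUniq h.whitInherit h.torusAsm

/-- **`T7.RigidAll` from the open leaves for every number field.** -/
theorem rigidAll_of_open62
    (h : ∀ (K : Type) [Field K] [NumberField K], Open62 K) : RigidAll :=
  fun K _ _ => rigidC_of_open62 K (h K)

end Fermat.Agent.LT.T7.Rigid
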