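import Mathlib
import Fermat.Agent.LT.T7.H62.RigidPlug
import Fermat.Agent.LT.T7.H555.Orth
import Fermat.Agent.LT.T7.H179.Weight
import Fermat.Agent.LT.T7.H267.Mix
import Fermat.Agent.LT.T7.H724.ArchU
import Fermat.Agent.LT.T7.H941.HeckeRec
import Fermat.Agent.LT.T7.H878.WhitInherit

/-!
# Row LT, tower T7, NODE T7.14 `RigidC` -- PLUG, state 15:30Z (sub-architect helper62)

OFF-MAIN.  `Open62b K` = the FIVE leaves of `T7.RigidC K` which are still open:
`CountC` (row 1519), `FoldWhitC` (row 1717), `IdeleSumC` (row 1720), `LocC` (row 1829),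
`TorusAsmC` (row 1832).  `rigidC_of_open62b : Open62b K → T7.RigidC K`, `rigidAll_of_open62b`.

CLOSED since `RigidPlug.lean`: `OrthC` (helper555), `WeightC` (helper179), `MixC` (helper267),
`ArchUniqC` (helper724), `HeckeRecC` (helper941), `WhitInheritC` (helper878).

All imported files are byte-identical copies of the owners' files.
-/

set_option autoImplicit false

open IsDedekindDomain NumberField MeasureTheory

namespace Fermat.Agent.LT.T7.Rigid

open Fermat.Agent.LT.H556.A0 Fermat.Agent.LT.T7

variable (K : Type) [Field K] [NumberField K]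

/-- THE OPEN LEAVES of `T7.RigidC K`, state 15:30Z. -/
structure Open62b : Prop where
  /-- T7.14.3 (row 1519, helper671). -/
  count : CountC K
  /-- T7.14.6a (row 1717, helper290). -/
  foldWhit : FoldWhitC K
  /-- T7.14.6c (row 1720, helper568). -/
  ideleSum : IdeleSumC K
  /-- T7.14.6b.1 (row 1829, helper203). -/
  loc : LocC K
  /-- T7.14.6b.5 (row 1832, helper683). -/
  torusAsm : TorusAsmC K

/-- The leaves of `Open62` which are closed. -/
theorem open62_of_open62b (h : Open62b K) : Open62 K where
  count := h.count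
  orth := Fermat.Agent.LT.T7.H555.orthC555 K
  foldWhit := h.foldWhit
  ideleSum := h.ideleSum
  weight := Fermat.Agent.LT.T7.H179.weightC179 K
  mix := Fermat.Agent.LT.T7.Rigid.H267.mixC267 K
  loc := h.loc
  heckeRec := Fermat.Agent.LT.T7.H941.heckeRecC941
  archUniq := Fermat.Agent.LT.T7.H724.archUniqC724 K
  whitInherit := Fermat.Agent.LT.T7.H878.whitInheritC878 K
  torusAsm := h.torusAsm

/-- **`T7.RigidC K` from the five open leaves.** -/
theorem rigidC_of_open62b (h : Open62b K) : RigidC K :=
  rigidC_of_open62 K (open62_of_open62b K h)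

/-- **`T7.RigidAll` from the five open leaves for every number field.** -/
theorem rigidAll_of_open62b
    (h : ∀ (K : Type) [Field K] [NumberField K], Open62b K) : RigidAll :=
  fun K _ _ => rigidC_of_open62b K (h K)

end Fermat.Agent.LT.T7.Rigid
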