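import Mathlib
import Fermat.Agent.LT.T7.H62.RigidPlug2
import Fermat.Agent.LT.T7.H683.TorusAsm

/-!
# Row LT, tower T7, NODE T7.14 `RigidC` -- PLUG, state 15:35Z (sub-architect helper62)

OFF-MAIN.  `Open62c K` = the FOUR leaves of `T7.RigidC K` which are still open:
`CountC` (row 1519), `FoldWhitC` (row 1717), `IdeleSumC` (row 1720), `LocC` (row 1829).
`rigidC_of_open62c : Open62c K → T7.RigidC K`, `rigidAll_of_open62c`.

CLOSED since `RigidPlug2.lean`: `TorusAsmC` (helper683), hence the node `TorusC` (`torusC62`).

All imported files are byte-identical copies of the owners' files.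
-/

set_option autoImplicit false

open IsDedekindDomain NumberField MeasureTheory

namespace Fermat.Agent.LT.T7.Rigid

open Fermat.Agent.LT.H556.A0 Fermat.Agent.LT.T7

variable (K : Type) [Field K] [NumberField K]

/-- **The node `TorusC` is closed**: the Whittaker function of an `S`-form on the torus is
`f(y) · kirOut(y)`, `f` depending only on the components at `S`. -/
theorem torusC62 : TorusC K :=
  Fermat.Agent.LT.T7.H683.torusAsmC_683 Fermat.Agent.LT.T7.H941.heckeRecC941
    (Fermat.Agent.LT.T7.H724.archUniqC724 K) (Fermat.Agent.LT.T7.H878.whitInheritC878 K)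
    (Fermat.Agent.LT.T7.Rigid.H267.mixC267 K)

/-- THE OPEN LEAVES of `T7.RigidC K`, state 15:35Z. -/
structure Open62c : Prop where
  /-- T7.14.3 (row 1519, helper671). -/
  count : CountC K
  /-- T7.14.6a (row 1717, helper290). -/
  foldWhit : FoldWhitC K
  /-- T7.14.6c (row 1720, helper568). -/
  ideleSum : IdeleSumC K
  /-- T7.14.6b.1 (row 1829, helper203). -/
  loc : LocC K

/-- **`T7.RigidC K` from the four open leaves.** -/
theorem rigidC_of_open62c (h : Open62c K) : RigidC K :=
  rigidC_of_open62b K
    { count := h.count
      foldWhit := h.foldWhit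
      ideleSum := h.ideleSum
      loc := h.loc
      torusAsm := Fermat.Agent.LT.T7.H683.torusAsmC_683 }

/-- **`T7.RigidAll` from the four open leaves for every number field.** -/
theorem rigidAll_of_open62c
    (h : ∀ (K : Type) [Field K] [NumberField K], Open62c K) : RigidAll :=
  fun K _ _ => rigidC_of_open62c K (h K)

end Fermat.Agent.LT.T7.Rigid
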