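import Mathlib
import Fermat.Agent.LT.T7.H62.RigidPlug3
import Fermat.Agent.LT.T7.H568.IdeleSumClosed

/-!
# Row LT, tower T7, NODE T7.14 `RigidC` -- PLUG, state 15:40Z (sub-architect helper62)

OFF-MAIN.  `Open62d K` = the THREE leaves of `T7.RigidC K` which are still open:
`CountC` (row 1519), `FoldWhitC` (row 1717), `LocC` (row 1829).
`rigidC_of_open62d : Open62d K → T7.RigidC K`, `rigidAll_of_open62d`.

CLOSED since `RigidPlug3.lean`: `IdeleSumC` (helper568, integrator).

All imported files are byte-identical copies of the owners' files.
-/

set_option autoImplicit false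

open IsDedekindDomain NumberField MeasureTheory

namespace Fermat.Agent.LT.T7.Rigid

open Fermat.Agent.LT.H556.A0 Fermat.Agent.LT.T7

variable (K : Type) [Field K] [NumberField K]

/-- THE OPEN LEAVES of `T7.RigidC K`, state 15:40Z. -/
structure Open62d : Prop where
  /-- T7.14.3 (row 1519, helper671). -/
  count : CountC K
  /-- T7.14.6a (row 1717, helper290). -/
  foldWhit : FoldWhitC K
  /-- T7.14.6b.1 (row 1829, helper203). -/
  loc : LocC K

/-- **`T7.RigidC K` from the three open leaves.** -/
theorem rigidC_of_open62d (h : Open62d K) : RigidC K :=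
  rigidC_of_open62c K
    { count := h.count
      foldWhit := h.foldWhit
      ideleSum := Fermat.Agent.LT.T7.H568.ideleSumC568 K
      loc := h.loc }

/-- **`T7.RigidAll` from the three open leaves for every number field.** -/
theorem rigidAll_of_open62d
    (h : ∀ (K : Type) [Field K] [NumberField K], Open62d K) : RigidAll :=
  fun K _ _ => rigidC_of_open62d K (h K)

end Fermat.Agent.LT.T7.Rigid
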