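import Mathlib
import Fermat.Agent.LT.T7.H62.RigidPlug4
import Fermat.Agent.LT.T7.H941.Loc

/-!
# Row LT, tower T7, NODE T7.14 `RigidC` -- PLUG, state 15:47Z (sub-architect helper62)

OFF-MAIN.  `Open62e K` = the TWO leaves of `T7.RigidC K` which are still open:
`CountC` (row 1519), `FoldWhitC` (row 1717).
`rigidC_of_open62e : Open62e K → T7.RigidC K`, `rigidAll_of_open62e`.

CLOSED since `RigidPlug4.lean`: `LocC` (helper941), hence the node `WhitForm2C`
(`whitForm2C62`).

All imported files are byte-identical copies of the owners' files.
-/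

set_option autoImplicit false

open IsDedekindDomain NumberField MeasureTheory

namespace Fermat.Agent.LT.T7.Rigid

open Fermat.Agent.LT.H556.A0 Fermat.Agent.LT.T7

variable (K : Type) [Field K] [NumberField K]

/-- **The node `WhitForm2C` is closed.** -/
theorem whitForm2C62 : WhitForm2C K :=
  whitForm2C_of (torusC62 K) Fermat.Agent.LT.T7.H941.locC941
    (Fermat.Agent.LT.T7.Rigid.H267.mixC267 K)

/-- THE OPEN LEAVES of `T7.RigidC K`, state 15:47Z. -/
structure Open62e : Prop where
  /-- T7.14.3 (row 1519, helper671). -/
  count : CountC K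
  /-- T7.14.6a (row 1717, helper290 / helper57). -/
  foldWhit : FoldWhitC K

/-- **`T7.RigidC K` from the two open leaves.** -/
theorem rigidC_of_open62e (h : Open62e K) : RigidC K :=
  rigidC_of_open62d K
    { count := h.count
      foldWhit := h.foldWhit
      loc := Fermat.Agent.LT.T7.H941.locC941 }

/-- **`T7.RigidAll` from the two open leaves for every number field.** -/
theorem rigidAll_of_open62e
    (h : ∀ (K : Type) [Field K] [NumberField K], Open62e K) : RigidAll :=
  fun K _ _ => rigidC_of_open62e K (h K)

end Fermat.Agent.LT.T7.Rigid
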