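import Mathlib
import Fermat.Agent.LT.T7.H62.RigidPlug5
import Fermat.Agent.LT.T7.H671.LimClosed

/-!
# Row LT, tower T7, NODE T7.14 `RigidC` -- PLUG, state 16:20Z (sub-architect helper62)

OFF-MAIN.  ONE leaf of `T7.RigidC K` is still open: `FoldWhitC` (row 1717).
`rigidC_of_foldWhit62 : FoldWhitC K → T7.RigidC K`, `rigidAll_of_foldWhit62`.

CLOSED since `RigidPlug5.lean`: `CountC` (helper671, every number field).

All imported files are byte-identical copies of the owners' files.
-/

set_option autoImplicit false

open IsDedekindDomain NumberField MeasureTheory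

namespace Fermat.Agent.LT.T7.Rigid

open Fermat.Agent.LT.H556.A0 Fermat.Agent.LT.T7

variable (K : Type) [Field K] [NumberField K]

/-- **`T7.RigidC K` from the last open leaf.** -/
theorem rigidC_of_foldWhit62 (h : FoldWhitC K) : RigidC K :=
  rigidC_of_open62e K
    { count := Fermat.Agent.LT.T7.H671.countC_closed671 K
      foldWhit := h }

/-- **`T7.RigidAll` from `FoldWhitC` for every number field.** -/
theorem rigidAll_of_foldWhit62
    (h : ∀ (K : Type) [Field K] [NumberField K], FoldWhitC K) : RigidAll :=
  fun K _ _ => rigidC_of_foldWhit62 K (h K)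

end Fermat.Agent.LT.T7.Rigid
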